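/-
helper53 (P-ES): open stabilisers / finite level for the points of `J₀(N)(ℚ̄)`.

* `exists_finiteLevel_of_mem_laurentBaseChange` : every element of `ℚ̄ · F₀ ⊆ ℚ̄((q))` is fixed
  (coefficientwise) by the fixer of a number field.
* `exists_single_pole` : over a function field satisfying Riemann's theorem (`H58.RRHyp`), every
  place is the unique pole of some function.
* `place_openStabiliser`, `divisor_openStabiliser`, `pic0_openStabiliser` : places, divisors and
  divisor classes of `ℚ̄ · F₀` are fixed by the fixer of a number field.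
* `jZero_openStabiliser` : the same for `ModularCurve.JZero N`.
* `jZero_torsion_finiteLevel` : if `J₀(N)[n]` is finite, then `JZero.torsionGaloisRep N n` is
  trivial on the fixer of a number field.
-/
import Fermat.Agent.H58.RR.Modular
import Fermat.Prelude.Def_ModularCurve_ArithmeticGalois

set_option autoImplicit false

noncomputable section

open AlgebraicCurve ModularCurve

namespace Fermat.Agent.H53

/-- The absolute Galois group of `ℚ` in the prelude's model. -/
abbrev OSGal : Type := AlgebraicClosure ℚ ≃ₐ[ℚ] AlgebraicClosure ℚ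

/-! ### Elements have finite level -/

theorem exists_finiteLevel_of_mem_laurentBaseChange
    (F₀ : IntermediateField ℚ (LaurentSeries ℚ)) {x : LaurentSeries (AlgebraicClosure ℚ)}
    (hx : x ∈ laurentBaseChange (AlgebraicClosure ℚ) F₀) :
    ∃ L : IntermediateField ℚ (AlgebraicClosure ℚ), FiniteDimensional ℚ L ∧
      ∀ σ : OSGal, (∀ a ∈ L, σ a = a) →
        coeffMap (σ : AlgebraicClosure ℚ →+* AlgebraicClosure ℚ) x = x := by
  rw [mem_laurentBaseChange_iff] at hx
  induction hx using Subfield.closure_induction with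
  | mem y hy =>
      rcases hy with ⟨a, rfl⟩ | ⟨z, _, rfl⟩
      · refine ⟨IntermediateField.adjoin ℚ {a}, ?_, fun σ hσ => ?_⟩
        · have halg : Algebra.IsAlgebraic ℚ (AlgebraicClosure ℚ) :=
            AlgebraicClosure.isAlgebraic ℚ
          exact IntermediateField.adjoin.finiteDimensional (halg.isAlgebraic a).isIntegral
        · rw [coeffMap_algebraMap]
          congr 1
          exact hσ a (IntermediateField.mem_adjoin_simple_self ℚ a)
      · exact ⟨⊥, inferInstance, fun σ _ => coeffMap_coeffEmb σ z⟩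
  | one => exact ⟨⊥, inferInstance, fun σ _ => map_one _⟩
  | add x y _ _ hx hy =>
      obtain ⟨L₁, h₁, hL₁⟩ := hx
      obtain ⟨L₂, h₂, hL₂⟩ := hy
      refine ⟨L₁ ⊔ L₂, IntermediateField.finiteDimensional_sup L₁ L₂, fun σ hσ => ?_⟩
      rw [map_add, hL₁ σ fun a ha => hσ a ((le_sup_left : L₁ ≤ L₁ ⊔ L₂) ha),
        hL₂ σ fun a ha => hσ a ((le_sup_right : L₂ ≤ L₁ ⊔ L₂) ha)]
  | neg x _ hx =>
      obtain ⟨L₁, h₁, hL₁⟩ := hx
      exact ⟨L₁, h₁, fun σ hσ => by rw [map_neg, hL₁ σ hσ]⟩
  | inv x _ hx =>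
      obtain ⟨L₁, h₁, hL₁⟩ := hx
      exact ⟨L₁, h₁, fun σ hσ => by rw [map_inv₀, hL₁ σ hσ]⟩
  | mul x y _ _ hx hy =>
      obtain ⟨L₁, h₁, hL₁⟩ := hx
      obtain ⟨L₂, h₂, hL₂⟩ := hy
      refine ⟨L₁ ⊔ L₂, IntermediateField.finiteDimensional_sup L₁ L₂, fun σ hσ => ?_⟩
      rw [map_mul, hL₁ σ fun a ha => hσ a ((le_sup_left : L₁ ≤ L₁ ⊔ L₂) ha),
        hL₂ σ fun a ha => hσ a ((le_sup_right : L₂ ≤ L₁ ⊔ L₂) ha)]

/-- Elements of `ℚ̄ · F₀` are fixed by `arithmeticGalois` of the fixer of a number field. -/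
theorem exists_finiteLevel_smul (F₀ : IntermediateField ℚ (LaurentSeries ℚ))
    (f : laurentBaseChange (AlgebraicClosure ℚ) F₀) :
    ∃ L : IntermediateField ℚ (AlgebraicClosure ℚ), FiniteDimensional ℚ L ∧
      ∀ σ : OSGal, (∀ a ∈ L, σ a = a) → arithmeticGalois F₀ σ • f = f := by
  obtain ⟨L, hL, h⟩ := exists_finiteLevel_of_mem_laurentBaseChange F₀ f.2
  exact ⟨L, hL, fun σ hσ => Subtype.ext (by rw [coe_arithmeticGalois_smul]; exact h σ hσ)⟩

/-! ### A function with a single pole -/

section SinglePole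

variable {K F : Type*} [Field K] [Field F] [Algebra K F]

theorem exists_single_pole (h : Fermat.Agent.H58.RRHyp K F) (P : Place K F) :
    ∃ f : F, f ≠ 0 ∧ P.ord f < 0 ∧ ∀ Q : Place K F, Q ≠ P → 0 ≤ Q.ord f := by
  classical
  have := h.principal
  set g : ℕ := genusFF K F with hg
  set D : Divisor K F := Finsupp.single P ((g : ℤ) + 1) with hD
  have hdeg : Divisor.degree D = (g : ℤ) + 1 := by
    rw [hD, Divisor.degree_single, h.deg_one P]; simp
  have h2 : 2 ≤ Module.finrank K (riemannRochSpace D) := by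
    have := h.riemann_inequality D
    rw [hdeg] at this
    have : (2 : ℤ) ≤ (Module.finrank K (riemannRochSpace D) : ℤ) := by omega
    exact_mod_cast this
  have := h.finite_space D
  -- a non-constant element of `L(D)`
  have hex : ∃ f ∈ riemannRochSpace D, ∀ c : K, f ≠ algebraMap K F c := by
    by_contra hcon
    simp only [not_exists, not_and, not_forall, not_not] at hcon
    have hle : riemannRochSpace D ≤ Submodule.span K {(1 : F)} := by
      intro f hf
      obtain ⟨c, hc⟩ := hcon f hf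
      rw [Submodule.mem_span_singleton]
      exact ⟨c, by rw [hc, Algebra.smul_def, mul_one]⟩
    have h3 := Submodule.finrank_mono hle
    rw [finrank_span_singleton (one_ne_zero)] at h3
    omega
  obtain ⟨f, hf, hfc⟩ := hex
  have hf0 : f ≠ 0 := fun h0 => hfc 0 (by rw [h0, map_zero])
  rw [mem_riemannRochSpace_iff] at hf
  have hQ : ∀ Q : Place K F, Q ≠ P → 0 ≤ Q.ord f := by
    intro Q hQ
    rcases hf Q with h0 | h0
    · exact absurd h0 hf0
    · have : D Q = 0 := by
        rw [hD, Finsupp.single_apply, if_neg (Ne.symm hQ)]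
      rw [this] at h0
      simpa using h0
  refine ⟨f, hf0, ?_, hQ⟩
  by_contra hP
  rw [not_lt] at hP
  have hmem : f ∈ riemannRochSpace (0 : Divisor K F) := by
    rw [mem_riemannRochSpace_iff]
    intro Q
    right
    simp only [Finsupp.coe_zero, Pi.zero_apply, neg_zero]
    by_cases hQ' : Q = P
    · rw [hQ']; exact hP
    · exact hQ Q hQ'
  obtain ⟨c, hc⟩ := (Fermat.Agent.H58.rr_mem_zero_iff h.deg_one P).mp hmem
  exact hfc c hc

end SinglePole

/-! ### Places, divisors, divisor classes -/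

section General

variable (F₀ : IntermediateField ℚ (LaurentSeries ℚ))

theorem place_openStabiliser
    (h : Fermat.Agent.H58.RRHyp (AlgebraicClosure ℚ) (laurentBaseChange (AlgebraicClosure ℚ) F₀))
    (P : Place (AlgebraicClosure ℚ) (laurentBaseChange (AlgebraicClosure ℚ) F₀)) :
    ∃ L : IntermediateField ℚ (AlgebraicClosure ℚ), FiniteDimensional ℚ L ∧
      ∀ σ : OSGal, (∀ a ∈ L, σ a = a) → arithmeticGalois F₀ σ • P = P := by
  obtain ⟨f, _, hP, hQ⟩ := exists_single_pole h P
  obtain ⟨L, hL, hfix⟩ := exists_finiteLevel_smul F₀ f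
  refine ⟨L, hL, fun σ hσ => ?_⟩
  by_contra hne
  have h1 := SemilinearAut.ord_smul (arithmeticGalois F₀ σ) P f
  rw [hfix σ hσ] at h1
  have h2 := hQ _ hne
  omega

theorem divisor_openStabiliser
    (h : Fermat.Agent.H58.RRHyp (AlgebraicClosure ℚ) (laurentBaseChange (AlgebraicClosure ℚ) F₀))
    (D : Divisor (AlgebraicClosure ℚ) (laurentBaseChange (AlgebraicClosure ℚ) F₀)) :
    ∃ L : IntermediateField ℚ (AlgebraicClosure ℚ), FiniteDimensional ℚ L ∧
      ∀ σ : OSGal, (∀ a ∈ L, σ a = a) → arithmeticGalois F₀ σ • D = D := by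
  classical
  induction D using Finsupp.induction with
  | zero => exact ⟨⊥, inferInstance, fun σ _ => smul_zero _⟩
  | single_add v n D _ _ ih =>
      obtain ⟨L₁, h₁, hL₁⟩ := place_openStabiliser F₀ h v
      obtain ⟨L₂, h₂, hL₂⟩ := ih
      refine ⟨L₁ ⊔ L₂, IntermediateField.finiteDimensional_sup L₁ L₂, fun σ hσ => ?_⟩
      rw [smul_add, SemilinearAut.smul_single,
        hL₁ σ fun a ha => hσ a ((le_sup_left : L₁ ≤ L₁ ⊔ L₂) ha),
        hL₂ σ fun a ha => hσ a ((le_sup_right : L₂ ≤ L₁ ⊔ L₂) ha)]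

theorem pic0_openStabiliser
    (h : Fermat.Agent.H58.RRHyp (AlgebraicClosure ℚ) (laurentBaseChange (AlgebraicClosure ℚ) F₀))
    (x : Pic0 (AlgebraicClosure ℚ) (laurentBaseChange (AlgebraicClosure ℚ) F₀)) :
    ∃ L : IntermediateField ℚ (AlgebraicClosure ℚ), FiniteDimensional ℚ L ∧
      ∀ σ : OSGal, (∀ a ∈ L, σ a = a) → σ • x = x := by
  obtain ⟨D, rfl⟩ := Pic0.mk_surjective x
  obtain ⟨L, hL, hfix⟩ := divisor_openStabiliser F₀ h (D : Divisor _ _)
  refine ⟨L, hL, fun σ hσ => ?_⟩
  rw [galois_smul_pic0_def, SemilinearAut.pic0_smul_mk]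
  exact congrArg Pic0.mk (Subtype.ext (by rw [SemilinearAut.coe_degZeroSMulHom]; exact hfix σ hσ))

/-- One number field for finitely many classes. -/
theorem pic0_openStabiliser_finset
    (h : Fermat.Agent.H58.RRHyp (AlgebraicClosure ℚ) (laurentBaseChange (AlgebraicClosure ℚ) F₀))
    (T : Finset (Pic0 (AlgebraicClosure ℚ) (laurentBaseChange (AlgebraicClosure ℚ) F₀))) :
    ∃ L : IntermediateField ℚ (AlgebraicClosure ℚ), FiniteDimensional ℚ L ∧
      ∀ σ : OSGal, (∀ a ∈ L, σ a = a) → ∀ x ∈ T, σ • x = x := by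
  classical
  induction T using Finset.induction_on with
  | empty => exact ⟨⊥, inferInstance, fun σ _ x hx => absurd hx (Finset.notMem_empty x)⟩
  | insert y T _ ih =>
      obtain ⟨L₁, h₁, hL₁⟩ := pic0_openStabiliser F₀ h y
      obtain ⟨L₂, h₂, hL₂⟩ := ih
      refine ⟨L₁ ⊔ L₂, IntermediateField.finiteDimensional_sup L₁ L₂, fun σ hσ x hx => ?_⟩
      rcases Finset.mem_insert.mp hx with rfl | hx
      · exact hL₁ σ fun a ha => hσ a ((le_sup_left : L₁ ≤ L₁ ⊔ L₂) ha)
      · exact hL₂ σ (fun a ha => hσ a ((le_sup_right : L₂ ≤ L₁ ⊔ L₂) ha)) x hx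

end General

/-! ### The modular Jacobian -/

/-- **Open stabilisers**: every point of `J₀(N)(ℚ̄)` is fixed by the fixer of a number field. -/
theorem jZero_openStabiliser (N : ℕ) [NeZero N] (x : JZero N) :
    ∃ L : IntermediateField ℚ (AlgebraicClosure ℚ), FiniteDimensional ℚ L ∧
      ∀ σ : OSGal, (∀ a ∈ L, σ a = a) → σ • x = x :=
  pic0_openStabiliser (modularFunctionFieldFull N)
    (Fermat.Agent.H58.rrHyp_modularFunctionFieldBar N) x

/-- One number field for a finite set of points. -/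
theorem jZero_openStabiliser_of_finite (N : ℕ) [NeZero N] (T : Set (JZero N)) (hT : T.Finite) :
    ∃ L : IntermediateField ℚ (AlgebraicClosure ℚ), FiniteDimensional ℚ L ∧
      ∀ σ : OSGal, (∀ a ∈ L, σ a = a) → ∀ x ∈ T, σ • x = x := by
  obtain ⟨L, hL, h⟩ := pic0_openStabiliser_finset (modularFunctionFieldFull N)
    (Fermat.Agent.H58.rrHyp_modularFunctionFieldBar N) hT.toFinset
  exact ⟨L, hL, fun σ hσ x hx => h σ hσ x (hT.mem_toFinset.mpr hx)⟩

/-- **Finite level of the torsion representation**: if `J₀(N)[n]` is finite, the Galois action on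
it is trivial on the fixer of a number field. -/
theorem jZero_torsion_finiteLevel (N : ℕ) [NeZero N] (n : ℕ)
    [Finite (Pic0.torsion (AlgebraicClosure ℚ) (modularFunctionFieldBar N) n)] :
    ∃ L : IntermediateField ℚ (AlgebraicClosure ℚ), FiniteDimensional ℚ L ∧
      ∀ σ : OSGal, (∀ a ∈ L, σ a = a) → JZero.torsionGaloisRep N n σ = 1 := by
  have hfin : (Set.range (fun x : Pic0.torsion (AlgebraicClosure ℚ) (modularFunctionFieldBar N) n
      => (x : JZero N))).Finite := Set.finite_range _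
  obtain ⟨L, hL, h⟩ := jZero_openStabiliser_of_finite N _ hfin
  refine ⟨L, hL, fun σ hσ => LinearMap.ext fun x => Subtype.ext ?_⟩
  rw [JZero.coe_torsionGaloisRep_apply, Module.End.one_apply]
  exact h σ hσ _ ⟨x, rfl⟩

/-- The same in the "all torsion points at once" form: every `x` with `n • x = 0`. -/
theorem jZero_torsion_finiteLevel' (N : ℕ) [NeZero N] (n : ℕ)
    [Finite (Pic0.torsion (AlgebraicClosure ℚ) (modularFunctionFieldBar N) n)] :
    ∃ L : IntermediateField ℚ (AlgebraicClosure ℚ), FiniteDimensional ℚ L ∧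
      ∀ σ : OSGal, (∀ a ∈ L, σ a = a) → ∀ x : JZero N, n • x = 0 → σ • x = x := by
  have hfin : (Set.range (fun x : Pic0.torsion (AlgebraicClosure ℚ) (modularFunctionFieldBar N) n
      => (x : JZero N))).Finite := Set.finite_range _
  obtain ⟨L, hL, h⟩ := jZero_openStabiliser_of_finite N _ hfin
  refine ⟨L, hL, fun σ hσ x hx => h σ hσ x ⟨⟨x, ?_⟩, rfl⟩⟩
  rw [Pic0.mem_torsion]
  exact (Nat.cast_smul_eq_nsmul ℤ n x).trans hx

end Fermat.Agent.H53

end
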