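/-
helper53 (P-ES): adapters from `Fermat.Agent.H53.ES.OpenStab` to the interface statements
`Fermat.Agent.H28.JSmoothStatement` (row J-SMOOTH) and `Fermat.Agent.H14.TorsionLevelStatement`
(row S31-LEVEL).
-/
import Fermat.Agent.H53.ES.OpenStab
import Fermat.Agent.H28.ES.Interface3
import Fermat.Agent.H14.S31JInterfaces
import Fermat.Agent.H29.ESB.Interfaces
import Fermat.Agent.H23.EsA.Unconditional

set_option autoImplicit false

namespace Fermat.Agent.H53

open AlgebraicCurve ModularCurve

/-- **J-SMOOTH** (unconditional): every (torsion) point of `J₀(N)(ℚ̄)` has an open stabiliser. -/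
theorem jSmoothStatement : Fermat.Agent.H28.JSmoothStatement :=
  fun N _ x _ => jZero_openStabiliser N x

/-- **S31-LEVEL** from finiteness of the torsion subgroups. -/
theorem torsionLevelStatement_of_finite (N : ℕ) [NeZero N]
    (hfin : ∀ m : ℕ, 0 < m →
      Finite (Pic0.torsion (AlgebraicClosure ℚ) (modularFunctionFieldBar N) m)) :
    Fermat.Agent.H14.TorsionLevelStatement N := by
  intro m hm
  have := hfin m hm
  exact jZero_torsion_finiteLevel' N m

/-- Finiteness of `J₀(N)(ℚ̄)[m]` from the descent statement of ES-B and the finiteness over `ℂ`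
(ES-A, unconditional). -/
theorem jTors_finite_of_descent (N : ℕ) [NeZero N] (hD : Fermat.Agent.H29.DescentStatement N)
    {m : ℕ} (hm : 0 < m) :
    Finite (Pic0.torsion (AlgebraicClosure ℚ) (modularFunctionFieldBar N) m) := by
  have halg : Algebra.IsAlgebraic ℚ (AlgebraicClosure ℚ) := AlgebraicClosure.isAlgebraic ℚ
  have ι : AlgebraicClosure ℚ →+* ℂ :=
    ((IsAlgClosed.lift : AlgebraicClosure ℚ →ₐ[ℚ] ℂ) : AlgebraicClosure ℚ →+* ℂ)
  obtain ⟨_, _, φ, -, -, -, -, -, -, hinj, -⟩ := hD ι
  have hfinC : Finite ↥(Pic0.torsion ℂ ↥(Fermat.Agent.H29.FC N) m) :=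
    Fermat.Agent.H23.EsA.finite_torsion_pic0 (N := N) hm
  let g : Pic0.torsion (AlgebraicClosure ℚ) (modularFunctionFieldBar N) m →
      Pic0.torsion ℂ ↥(Fermat.Agent.H29.FC N) m := fun x =>
    ⟨φ (x : Pic0 _ _), by
      rw [Pic0.mem_torsion, ← map_zsmul, Pic0.mem_torsion.mp x.2, map_zero]⟩
  refine Finite.of_injective g fun x y hxy => ?_
  have h1 : φ (x : Pic0 _ _) = φ (y : Pic0 _ _) := congrArg Subtype.val hxy
  exact Subtype.ext (hinj h1)

/-- **S31-LEVEL** from the descent statement of ES-B. -/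
theorem torsionLevelStatement_of_descent (N : ℕ) [NeZero N]
    (hD : Fermat.Agent.H29.DescentStatement N) :
    Fermat.Agent.H14.TorsionLevelStatement N :=
  torsionLevelStatement_of_finite N fun _ hm => jTors_finite_of_descent N hD hm

end Fermat.Agent.H53
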