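import Mathlib
import Fermat.Prelude.Def_EllipticCurve_FrobeniusTrace
import Fermat.Prelude.Def_FLTPrelim_Ramification
import Fermat.Prelude.Def_ExtCitation_KummerBridge
import Fermat.Prelude.Def_GaloisRep_Residual
import Fermat.Agent.H53.ValuationLocalization

/-!
# Frobenius elements and inertia act on roots of unity as expected

Let `A` be a valuation subring of `L` (an extension of `K`) whose residue characteristic does not
divide `m`.

* `IsFrobeniusAt.apply_sub_pow_mem_nonunits`: a Frobenius element `σ` at `A` (prelude sense)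
  satisfies `σ x - x ^ q ∈ 𝔪_A` for all `x ∈ A`.
* `apply_sub_mem_nonunits_of_mem_inertiaSubgroupIn`: an element of the inertia group satisfies
  `σ x - x ∈ 𝔪_A` for all `x ∈ A`.
* `eq_of_pow_eq_one_of_sub_mem_nonunits`: `m`-th roots of unity are distinct modulo `𝔪_A`.
* `IsFrobeniusAt.apply_rootOfUnity`: `σ ζ = ζ ^ q`.
* `apply_rootOfUnity_of_mem_inertiaSubgroupIn`: `σ ζ = ζ`.
* values of the mod `p` cyclotomic character `ExtCitation.cycloChar p`.
-/

set_option autoImplicit false
set_option linter.style.haveILetI false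

namespace Fermat.Agent.H53

open scoped Pointwise

section Generic

variable {K L : Type*} [Field K] [Field L] [Algebra K L]

theorem apply_mem_of_mem_decomp (A : ValuationSubring L) {σ : L ≃ₐ[K] L}
    (hσ : σ ∈ A.decompositionSubgroup K) {x : L} (hx : x ∈ A) : σ x ∈ A := by
  have h : σ • A = A := hσ
  have : σ • x ∈ σ • A := ValuationSubring.smul_mem_pointwise_smul σ x A hx
  rw [h] at this
  exact this

/-- A Frobenius element (prelude sense) is congruent to the `q`-th power map modulo the maximal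
ideal. -/
theorem IsFrobeniusAt.apply_sub_pow_mem_nonunits {A : ValuationSubring L} {σ : L ≃ₐ[K] L}
    {q : ℕ} (h : A.IsFrobeniusAt σ q) {x : L} (hx : x ∈ A) : σ x - x ^ q ∈ A.nonunits := by
  obtain ⟨hσ, hF⟩ := h
  have h1 := hF (IsLocalRing.residue A ⟨x, hx⟩)
  rw [← IsLocalRing.ResidueField.residue_smul, ← map_pow, ← sub_eq_zero, ← map_sub,
    IsLocalRing.residue_eq_zero_iff, ← ValuationSubring.coe_mem_nonunits_iff] at h1
  exact h1

/-- An element of the inertia group (prelude sense) is congruent to the identity modulo the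
maximal ideal. -/
theorem apply_sub_mem_nonunits_of_mem_inertiaSubgroupIn {A : ValuationSubring L}
    {σ : L ≃ₐ[K] L} (h : σ ∈ A.inertiaSubgroupIn K) {x : L} (hx : x ∈ A) :
    σ x - x ∈ A.nonunits := by
  obtain ⟨τ, hτ, rfl⟩ := h
  have hτ' : τ ∈ A.inertiaSubgroup K := hτ
  rw [ValuationSubring.inertiaSubgroup, MonoidHom.mem_ker] at hτ'
  have h1 : τ • (IsLocalRing.residue A ⟨x, hx⟩) = IsLocalRing.residue A ⟨x, hx⟩ := by
    have := congrArg (fun f : RingAut (IsLocalRing.ResidueField A) =>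
      f (IsLocalRing.residue A ⟨x, hx⟩)) hτ'
    exact this
  rw [← IsLocalRing.ResidueField.residue_smul, ← sub_eq_zero, ← map_sub,
    IsLocalRing.residue_eq_zero_iff, ← ValuationSubring.coe_mem_nonunits_iff] at h1
  exact h1

theorem mem_decomp_of_mem_inertiaSubgroupIn {A : ValuationSubring L}
    {σ : L ≃ₐ[K] L} (h : σ ∈ A.inertiaSubgroupIn K) : σ ∈ A.decompositionSubgroup K := by
  obtain ⟨τ, _, rfl⟩ := h
  exact τ.2

end Generic

/-! ### Roots of unity modulo the maximal ideal -/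

section Roots

variable {L : Type*} [Field L]

theorem mem_of_pow_eq_one (A : ValuationSubring L) {m : ℕ} (hm : m ≠ 0) {ζ : L}
    (hζ : ζ ^ m = 1) : ζ ∈ A := by
  rw [← A.valuation_le_one_iff]
  have h1 : A.valuation ζ ^ m = 1 := by rw [← map_pow, hζ, map_one]
  by_contra hlt
  rw [not_le] at hlt
  have h2 : 1 < A.valuation ζ ^ m := one_lt_pow₀ hlt hm
  rw [h1] at h2
  exact lt_irrefl _ h2

theorem geom_sum_sub_mem_nonunits (A : ValuationSubring L) {ω : L} (hω : ω ∈ A)
    (h : ω - 1 ∈ A.nonunits) (n : ℕ) :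
    (∑ i ∈ Finset.range n, ω ^ i) - (n : L) ∈ A.nonunits := by
  induction n with
  | zero => simp
  | succ n ih =>
    rw [Finset.sum_range_succ, Nat.cast_succ]
    have h1 : ω ^ n - 1 ∈ A.nonunits := by
      have e : ω ^ n - 1 = (ω - 1) * ∑ i ∈ Finset.range n, ω ^ i := (mul_geom_sum ω n).symm
      rw [e]
      exact nonunits_mul_mem A h (sum_mem fun i _ => pow_mem hω i)
    have e2 : (∑ i ∈ Finset.range n, ω ^ i) + ω ^ n - ((n : L) + 1) =
        ((∑ i ∈ Finset.range n, ω ^ i) - (n : L)) + (ω ^ n - 1) := by ring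
    rw [e2]
    exact add_mem ih h1

/-- Roots of unity of order prime to the residue characteristic are distinct modulo the maximal
ideal. -/
theorem eq_of_pow_eq_one_of_sub_mem_nonunits (A : ValuationSubring L) {m : ℕ}
    (hm : (m : L) ∉ A.nonunits) {ζ ζ' : L} (hζ : ζ ^ m = 1) (hζ' : ζ' ^ m = 1)
    (h : ζ' - ζ ∈ A.nonunits) : ζ' = ζ := by
  have hm0 : m ≠ 0 := by
    rintro rfl
    apply hm
    rw [Nat.cast_zero]
    exact A.nonunits.zero_mem
  have hζ0 : ζ ≠ 0 := by
    rintro rfl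
    rw [zero_pow hm0] at hζ
    exact zero_ne_one hζ
  have hζinv : ζ⁻¹ ∈ A := mem_of_pow_eq_one A hm0 (by rw [inv_pow, hζ, inv_one])
  set ω : L := ζ' * ζ⁻¹ with hω
  have hωm : ω ^ m = 1 := by rw [hω, mul_pow, inv_pow, hζ, hζ', inv_one, mul_one]
  have hωA : ω ∈ A := mem_of_pow_eq_one A hm0 hωm
  have hω1 : ω - 1 ∈ A.nonunits := by
    have e : ω - 1 = (ζ' - ζ) * ζ⁻¹ := by
      rw [hω, sub_mul, mul_inv_cancel₀ hζ0]
    rw [e]
    exact nonunits_mul_mem A h hζinv
  by_contra hne
  have hω_ne : ω ≠ 1 := by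
    intro h1
    apply hne
    have : ζ' = ω * ζ := by rw [hω, mul_assoc, inv_mul_cancel₀ hζ0, mul_one]
    rw [this, h1, one_mul]
  have hsum : ∑ i ∈ Finset.range m, ω ^ i = 0 := by
    have h1 : (ω - 1) * ∑ i ∈ Finset.range m, ω ^ i = 0 := by
      rw [mul_geom_sum, hωm, sub_self]
    exact (mul_eq_zero.mp h1).resolve_left (sub_ne_zero.mpr hω_ne)
  have h2 := geom_sum_sub_mem_nonunits A hωA hω1 m
  rw [hsum, zero_sub] at h2
  apply hm
  have := neg_mem h2
  rwa [neg_neg] at this

end Roots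

section Action

variable {K L : Type*} [Field K] [Field L] [Algebra K L]

/-- A Frobenius element at `A` raises roots of unity of order prime to the residue characteristic
to the `q`-th power. -/
theorem IsFrobeniusAt.apply_rootOfUnity {A : ValuationSubring L} {σ : L ≃ₐ[K] L} {q : ℕ}
    (h : A.IsFrobeniusAt σ q) {m : ℕ} (hm : (m : L) ∉ A.nonunits) {ζ : L} (hζ : ζ ^ m = 1) :
    σ ζ = ζ ^ q := by
  have hm0 : m ≠ 0 := by
    rintro rfl
    apply hm
    rw [Nat.cast_zero]
    exact A.nonunits.zero_mem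
  refine eq_of_pow_eq_one_of_sub_mem_nonunits A hm ?_ ?_ ?_
  · rw [← pow_mul, mul_comm, pow_mul, hζ, one_pow]
  · rw [← map_pow, hζ, map_one]
  · exact IsFrobeniusAt.apply_sub_pow_mem_nonunits h (mem_of_pow_eq_one A hm0 hζ)

/-- Inertia fixes roots of unity of order prime to the residue characteristic. -/
theorem apply_rootOfUnity_of_mem_inertiaSubgroupIn {A : ValuationSubring L} {σ : L ≃ₐ[K] L}
    (h : σ ∈ A.inertiaSubgroupIn K) {m : ℕ} (hm : (m : L) ∉ A.nonunits) {ζ : L}
    (hζ : ζ ^ m = 1) : σ ζ = ζ := by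
  have hm0 : m ≠ 0 := by
    rintro rfl
    apply hm
    rw [Nat.cast_zero]
    exact A.nonunits.zero_mem
  refine eq_of_pow_eq_one_of_sub_mem_nonunits A hm hζ ?_ ?_
  · rw [← map_pow, hζ, map_one]
  · exact apply_sub_mem_nonunits_of_mem_inertiaSubgroupIn h (mem_of_pow_eq_one A hm0 hζ)

end Action

/-! ### Values of the cyclotomic characters -/

section ModChar

variable {K L : Type*} [Field K] [Field L] [Algebra K L]

/-- The mod `n` cyclotomic character takes the value `q` at a Frobenius element at a place of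
residue characteristic prime to `n`. -/
theorem modularCyclotomicCharacter_of_isFrobeniusAt {n : ℕ} [NeZero n]
    (hn : Nat.card (rootsOfUnity n L) = n) {A : ValuationSubring L} {σ : L ≃ₐ[K] L} {q : ℕ}
    (h : A.IsFrobeniusAt σ q) (hnA : (n : L) ∉ A.nonunits) :
    ((modularCyclotomicCharacter L hn (σ : L ≃+* L) : (ZMod n)ˣ) : ZMod n) = (q : ZMod n) := by
  symm
  apply modularCyclotomicCharacter.unique
  intro t ht
  have ht' : (t : L) ^ n = 1 := by
    have := (mem_rootsOfUnity n t).mp ht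
    rw [← Units.val_pow_eq_pow_val, this, Units.val_one]
  rw [ZMod.val_natCast, ← pow_eq_pow_mod q ht']
  exact IsFrobeniusAt.apply_rootOfUnity h hnA ht'

/-- The mod `n` cyclotomic character is trivial on the inertia group at a place of residue
characteristic prime to `n`. -/
theorem modularCyclotomicCharacter_of_mem_inertiaSubgroupIn {n : ℕ} [NeZero n]
    (hn : Nat.card (rootsOfUnity n L) = n) {A : ValuationSubring L} {σ : L ≃ₐ[K] L}
    (h : σ ∈ A.inertiaSubgroupIn K) (hnA : (n : L) ∉ A.nonunits) :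
    modularCyclotomicCharacter L hn (σ : L ≃+* L) = 1 := by
  apply Units.ext
  rw [Units.val_one]
  symm
  apply modularCyclotomicCharacter.unique
  intro t ht
  have ht' : (t : L) ^ n = 1 := by
    have := (mem_rootsOfUnity n t).mp ht
    rw [← Units.val_pow_eq_pow_val, this, Units.val_one]
  have e : ((1 : ZMod n)).val = 1 % n := by
    rw [← Nat.cast_one, ZMod.val_natCast]
  rw [e, ← pow_eq_pow_mod 1 ht', pow_one]
  exact apply_rootOfUnity_of_mem_inertiaSubgroupIn h hnA ht'

/-- The mod `n` cyclotomic character is trivial on automorphisms fixing the `n`-th roots of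
unity. -/
theorem modularCyclotomicCharacter_eq_one_of_fixes {n : ℕ} [NeZero n]
    (hn : Nat.card (rootsOfUnity n L) = n) (g : L ≃+* L)
    (h : ∀ ζ : L, ζ ^ n = 1 → g ζ = ζ) : modularCyclotomicCharacter L hn g = 1 := by
  apply Units.ext
  rw [Units.val_one]
  symm
  apply modularCyclotomicCharacter.unique
  intro t ht
  have ht' : (t : L) ^ n = 1 := by
    have := (mem_rootsOfUnity n t).mp ht
    rw [← Units.val_pow_eq_pow_val, this, Units.val_one]
  have e : ((1 : ZMod n)).val = 1 % n := by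
    rw [← Nat.cast_one, ZMod.val_natCast]
  rw [e, ← pow_eq_pow_mod 1 ht', pow_one]
  exact h _ ht'

end ModChar

section Qbar

open ExtCitation

local notation "Γℚ" => (AlgebraicClosure ℚ ≃ₐ[ℚ] AlgebraicClosure ℚ)

theorem intCast_mem_valuationSubring {L : Type*} [Field L] (A : ValuationSubring L) (c : ℤ) :
    (c : L) ∈ A := by
  have : (c : L) = ((c : A) : L) := by push_cast; rfl
  rw [this]
  exact (c : A).2

/-- A prime different from the residue characteristic is a unit. -/
theorem natCast_prime_not_mem_nonunits {L : Type*} [Field L] {ℓ p : ℕ} (hℓ : ℓ.Prime)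
    (hp : p.Prime) (hne : ℓ ≠ p) (A : ValuationSubring L) (hA : A.LiesOverPrime ℓ) :
    (p : L) ∉ A.nonunits := by
  intro hpA
  have hA' : (ℓ : L) ∈ A.nonunits := hA
  have hcop : IsCoprime (ℓ : ℤ) (p : ℤ) := by
    rw [Int.isCoprime_iff_gcd_eq_one, Int.gcd_natCast_natCast]
    exact (Nat.coprime_primes hℓ hp).mpr hne
  obtain ⟨u, v, huv⟩ := hcop
  have h1 : ((u : L) * (ℓ : L) + (v : L) * (p : L)) = 1 := by
    exact_mod_cast congrArg (Int.cast (R := L)) huv
  have h2 : (1 : L) ∈ A.nonunits := by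
    rw [← h1]
    refine add_mem ?_ ?_
    · rw [mul_comm]; exact nonunits_mul_mem A hA' (intCast_mem_valuationSubring A u)
    · rw [mul_comm]; exact nonunits_mul_mem A hpA (intCast_mem_valuationSubring A v)
  rw [ValuationSubring.mem_nonunits_iff, map_one] at h2
  exact lt_irrefl _ h2

theorem natCast_pow_not_mem_nonunits {L : Type*} [Field L] {ℓ p : ℕ} (hℓ : ℓ.Prime)
    (hp : p.Prime) (hne : ℓ ≠ p) (A : ValuationSubring L) (hA : A.LiesOverPrime ℓ) (n : ℕ) :
    ((p ^ n : ℕ) : L) ∉ A.nonunits := by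
  have h := natCast_prime_not_mem_nonunits hℓ hp hne A hA
  rw [ValuationSubring.mem_nonunits_iff, not_lt] at h ⊢
  have h1 : A.valuation (p : L) = 1 :=
    le_antisymm ((A.valuation_le_one_iff _).mpr (by
      have := intCast_mem_valuationSubring A (p : ℤ)
      rwa [Int.cast_natCast] at this)) h
  rw [Nat.cast_pow, map_pow, h1, one_pow]

variable (p : ℕ) [Fact p.Prime]

/-- **The mod `p` cyclotomic character at Frobenius elements.** -/
theorem cycloChar_of_isFrobeniusAt {ℓ : ℕ} (hℓ : ℓ.Prime) (hne : ℓ ≠ p)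
    {A : ValuationSubring (AlgebraicClosure ℚ)} (hA : A.LiesOverPrime ℓ) {σ : Γℚ}
    (h : A.IsFrobeniusAt σ ℓ) : ((cycloChar p σ : (ZMod p)ˣ) : ZMod p) = (ℓ : ZMod p) := by
  haveI : NeZero p := ⟨(Fact.out : p.Prime).ne_zero⟩
  exact modularCyclotomicCharacter_of_isFrobeniusAt (card_rootsOfUnity_eq_self p) h
    (natCast_prime_not_mem_nonunits hℓ Fact.out hne A hA)

/-- **The mod `p` cyclotomic character is unramified away from `p`.** -/
theorem cycloChar_of_mem_inertiaSubgroupIn {ℓ : ℕ} (hℓ : ℓ.Prime) (hne : ℓ ≠ p)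
    {A : ValuationSubring (AlgebraicClosure ℚ)} (hA : A.LiesOverPrime ℓ) {σ : Γℚ}
    (h : σ ∈ A.inertiaSubgroupIn ℚ) : cycloChar p σ = 1 := by
  haveI : NeZero p := ⟨(Fact.out : p.Prime).ne_zero⟩
  exact modularCyclotomicCharacter_of_mem_inertiaSubgroupIn (card_rootsOfUnity_eq_self p) h
    (natCast_prime_not_mem_nonunits hℓ Fact.out hne A hA)

/-- The mod `p` cyclotomic character is trivial on elements fixing the `p`-th roots of unity. -/
theorem cycloChar_eq_one_of_fixes {σ : Γℚ}
    (h : ∀ ζ : AlgebraicClosure ℚ, ζ ^ p = 1 → σ ζ = ζ) : cycloChar p σ = 1 := by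
  haveI : NeZero p := ⟨(Fact.out : p.Prime).ne_zero⟩
  exact modularCyclotomicCharacter_eq_one_of_fixes (card_rootsOfUnity_eq_self p)
    (σ : AlgebraicClosure ℚ ≃+* AlgebraicClosure ℚ) h

/-- The mod `p` cyclotomic character factors through a finite level: there is a finite extension
`F/ℚ` inside `ℚ̄` such that every `σ` fixing `F` pointwise has `cycloChar p σ = 1`. -/
theorem cycloChar_factorsThroughFiniteLevel :
    ∃ F : IntermediateField ℚ (AlgebraicClosure ℚ), FiniteDimensional ℚ F ∧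
      ∀ σ : Γℚ, (∀ x ∈ F, σ x = x) → cycloChar p σ = 1 := by
  haveI : NeZero p := ⟨(Fact.out : p.Prime).ne_zero⟩
  haveI : NeZero (p : AlgebraicClosure ℚ) := ⟨by exact_mod_cast (Fact.out : p.Prime).ne_zero⟩
  obtain ⟨ζ, hζ⟩ := HasEnoughRootsOfUnity.exists_primitiveRoot (AlgebraicClosure ℚ) p
  refine ⟨IntermediateField.adjoin ℚ {ζ}, ?_, fun σ hσ => ?_⟩
  · exact IntermediateField.adjoin.finiteDimensional
      ((hζ.isIntegral (Nat.pos_of_neZero _)).tower_top)
  · apply cycloChar_eq_one_of_fixes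
    intro t ht
    obtain ⟨i, _, rfl⟩ := hζ.eq_pow_of_pow_eq_one ht
    rw [map_pow, hσ ζ (IntermediateField.mem_adjoin_simple_self ℚ ζ)]

/-- Prelude form of the previous statement. -/
theorem galoisFactorsThroughFiniteLevel_cycloChar :
    GaloisFactorsThroughFiniteLevel (cycloChar p) :=
  cycloChar_factorsThroughFiniteLevel p

/-- The mod `p` cyclotomic character is unramified at every prime `ℓ ≠ p` (all places). -/
theorem cycloChar_unramified {ℓ : ℕ} (hℓ : ℓ.Prime) (hne : ℓ ≠ p) :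
    ∀ A : ValuationSubring (AlgebraicClosure ℚ), A.LiesOverPrime ℓ →
      ∀ σ ∈ A.inertiaSubgroupIn ℚ, cycloChar p σ = 1 :=
  fun _ hA _ hσ => cycloChar_of_mem_inertiaSubgroupIn p hℓ hne hA hσ

/-! ### The `p`-adic cyclotomic character -/

theorem hasEnoughRootsOfUnity_Qbar_pow (i : ℕ) :
    HasEnoughRootsOfUnity (AlgebraicClosure ℚ) (p ^ i) := by
  haveI : NeZero (p ^ i) := ⟨pow_ne_zero _ (Fact.out : p.Prime).ne_zero⟩
  haveI : NeZero (((p ^ i : ℕ) : AlgebraicClosure ℚ)) :=
    ⟨by exact_mod_cast pow_ne_zero i (Fact.out : p.Prime).ne_zero⟩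
  infer_instance

/-- **The `p`-adic cyclotomic character at Frobenius elements**: value `ℓ`. -/
theorem cyclotomicCharacter_of_isFrobeniusAt {ℓ : ℕ} (hℓ : ℓ.Prime) (hne : ℓ ≠ p)
    {A : ValuationSubring (AlgebraicClosure ℚ)} (hA : A.LiesOverPrime ℓ) {σ : Γℚ}
    (h : A.IsFrobeniusAt σ ℓ) :
    ((cyclotomicCharacter (AlgebraicClosure ℚ) p
      (σ : AlgebraicClosure ℚ ≃+* AlgebraicClosure ℚ) : ℤ_[p]ˣ) : ℤ_[p]) = (ℓ : ℤ_[p]) := by
  haveI : ∀ i, HasEnoughRootsOfUnity (AlgebraicClosure ℚ) (p ^ i) :=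
    hasEnoughRootsOfUnity_Qbar_pow p
  refine PadicInt.ext_of_toZModPow.mp fun n => ?_
  haveI : NeZero (p ^ n) := ⟨pow_ne_zero _ (Fact.out : p.Prime).ne_zero⟩
  rw [cyclotomicCharacter.toZModPow, map_natCast]
  exact modularCyclotomicCharacter_of_isFrobeniusAt _ h
    (natCast_pow_not_mem_nonunits hℓ Fact.out hne A hA n)

/-- **The `p`-adic cyclotomic character is unramified away from `p`.** -/
theorem cyclotomicCharacter_of_mem_inertiaSubgroupIn {ℓ : ℕ} (hℓ : ℓ.Prime) (hne : ℓ ≠ p)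
    {A : ValuationSubring (AlgebraicClosure ℚ)} (hA : A.LiesOverPrime ℓ) {σ : Γℚ}
    (h : σ ∈ A.inertiaSubgroupIn ℚ) :
    cyclotomicCharacter (AlgebraicClosure ℚ) p
      (σ : AlgebraicClosure ℚ ≃+* AlgebraicClosure ℚ) = 1 := by
  haveI : ∀ i, HasEnoughRootsOfUnity (AlgebraicClosure ℚ) (p ^ i) :=
    hasEnoughRootsOfUnity_Qbar_pow p
  apply Units.ext
  rw [Units.val_one]
  refine PadicInt.ext_of_toZModPow.mp fun n => ?_
  haveI : NeZero (p ^ n) := ⟨pow_ne_zero _ (Fact.out : p.Prime).ne_zero⟩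
  rw [cyclotomicCharacter.toZModPow, map_one,
    modularCyclotomicCharacter_of_mem_inertiaSubgroupIn _ h
      (natCast_pow_not_mem_nonunits hℓ Fact.out hne A hA n), Units.val_one]

end Qbar

end Fermat.Agent.H53
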