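import Mathlib

/-!
# Automorphisms of an algebraically closed field move transcendental elements

Let `K` be an algebraically closed field containing a field `k`.

* `exists_algEquiv_apply_eq_add`: if `z ∈ K` is transcendental over `k` and `c ∈ k`, there is a
  `k`-automorphism `σ` of `K` with `σ z = z + c`.
* `isAlgebraic_of_finite_orbit`: if `k` is infinite and the orbit of `z` under `Aut(K/k)` is
  finite then `z` is algebraic over `k`.
* `isAlgebraic_of_finiteIndex_fixed`: if a finite index subgroup of `Aut(K/k)` fixes `z`, then `z`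
  is algebraic over `k`.
* `mem_range_algebraMap_of_finiteIndex_fixed`: if moreover `k` is algebraically closed, `z` lies
  in `k`.
-/

set_option autoImplicit false
set_option linter.style.haveILetI false

namespace Fermat.Agent.H53

open MvPolynomial

section Shift

variable {k : Type*} [Field k] {ι : Type*} [DecidableEq ι]

/-- The substitution `X i₀ ↦ X i₀ + c` on a polynomial ring. -/
noncomputable def shiftHom (i₀ : ι) (c : k) : MvPolynomial ι k →ₐ[k] MvPolynomial ι k :=
  aeval fun i => X i + (if i = i₀ then C c else 0)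

theorem shiftHom_X (i₀ : ι) (c : k) (i : ι) :
    shiftHom i₀ c (X i) = X i + (if i = i₀ then C c else 0) := by
  rw [shiftHom, aeval_X]

theorem shiftHom_comp (i₀ : ι) (c d : k) (h : c + d = 0) :
    (shiftHom i₀ c).comp (shiftHom i₀ d) = AlgHom.id k (MvPolynomial ι k) := by
  apply MvPolynomial.algHom_ext
  intro i
  rw [AlgHom.comp_apply, shiftHom_X, map_add, shiftHom_X, AlgHom.id_apply]
  by_cases hi : i = i₀
  · rw [if_pos hi, if_pos hi]
    have : shiftHom i₀ c (C d) = C d := by
      rw [← MvPolynomial.algebraMap_eq, AlgHom.commutes]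
    rw [this, add_assoc, ← C_add, h, C_0, add_zero]
  · rw [if_neg hi, if_neg hi, map_zero, add_zero, add_zero]

/-- The substitution `X i₀ ↦ X i₀ + c` as an automorphism. -/
noncomputable def shiftEquiv (i₀ : ι) (c : k) : MvPolynomial ι k ≃ₐ[k] MvPolynomial ι k :=
  AlgEquiv.ofAlgHom (shiftHom i₀ c) (shiftHom i₀ (-c))
    (shiftHom_comp i₀ c (-c) (add_neg_cancel c))
    (shiftHom_comp i₀ (-c) c (neg_add_cancel c))

theorem shiftEquiv_X_self (i₀ : ι) (c : k) : shiftEquiv i₀ c (X i₀) = X i₀ + C c := by
  show shiftHom i₀ c (X i₀) = _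
  rw [shiftHom_X, if_pos rfl]

end Shift

section Main

variable {k K : Type*} [Field k] [Field K] [Algebra k K]

/-- A transcendental element of an algebraically closed field can be translated by any constant
by an automorphism over the base field. -/
theorem exists_algEquiv_apply_eq_add [IsAlgClosed K] {z : K} (hz : Transcendental k z) (c : k) :
    ∃ σ : K ≃ₐ[k] K, σ z = z + algebraMap k K c := by
  classical
  have hs : AlgebraicIndepOn k id ({z} : Set K) := by
    have : AlgebraicIndependent k (fun x : ({z} : Set K) => (x : K)) :=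
      (algebraicIndependent_singleton_iff (⟨z, rfl⟩ : ({z} : Set K))).mpr hz
    exact this
  obtain ⟨t, hzt, ht⟩ := exists_isTranscendenceBasis_superset hs
  set i₀ : t := ⟨z, hzt rfl⟩ with hi₀
  -- the subalgebra generated by the basis
  let S : Subalgebra k K := Algebra.adjoin k (Set.range ((↑) : t → K))
  let e₀ : MvPolynomial t k ≃ₐ[k] S := ht.1.aevalEquiv
  let e : S ≃ₐ[k] S := (e₀.symm.trans (shiftEquiv i₀ c)).trans e₀
  haveI hcl : IsAlgClosure S K := IsAlgClosed.isAlgClosure_of_transcendence_basis _ ht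
  let σ₀ : K ≃+* K := IsAlgClosure.equivOfEquiv K K e.toRingEquiv
  have hσ₀ : ∀ s : S, σ₀ (s : K) = (e s : K) := fun s =>
    IsAlgClosure.equivOfEquiv_algebraMap K K e.toRingEquiv s
  have hcomm : ∀ a : k, σ₀ (algebraMap k K a) = algebraMap k K a := by
    intro a
    have h1 : algebraMap k K a = ((algebraMap k S a : S) : K) := rfl
    rw [h1, hσ₀, e.commutes]
  refine ⟨AlgEquiv.ofRingEquiv (f := σ₀) hcomm, ?_⟩
  show σ₀ z = _
  have hzS : z ∈ S := Algebra.subset_adjoin ⟨i₀, rfl⟩
  have h2 : e₀ (X i₀) = ⟨z, hzS⟩ := by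
    apply Subtype.ext
    rw [AlgebraicIndependent.aevalEquiv_apply_coe, aeval_X]
  have h3 : e₀.symm ⟨z, hzS⟩ = X i₀ := by
    rw [AlgEquiv.symm_apply_eq, h2]
  have h4 : (e ⟨z, hzS⟩ : K) = z + algebraMap k K c := by
    show ((e₀ (shiftEquiv i₀ c (e₀.symm ⟨z, hzS⟩)) : S) : K) = _
    rw [h3, shiftEquiv_X_self, AlgebraicIndependent.aevalEquiv_apply_coe, map_add, aeval_X,
      aeval_C]
  have := hσ₀ ⟨z, hzS⟩
  rw [h4] at this
  exact this

/-- If `k` is infinite and the orbit of `z` under `Aut(K/k)` is finite, then `z` is algebraic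
over `k`. -/
theorem isAlgebraic_of_finite_orbit [IsAlgClosed K] [Infinite k] {z : K}
    (h : (Set.range fun σ : K ≃ₐ[k] K => σ z).Finite) : IsAlgebraic k z := by
  by_contra hz
  have hz' : Transcendental k z := hz
  have hinj : Function.Injective fun c : k => z + algebraMap k K c := by
    intro c d hcd
    have : algebraMap k K c = algebraMap k K d := add_left_cancel hcd
    exact (algebraMap k K).injective this
  have hsub : Set.range (fun c : k => z + algebraMap k K c) ⊆
      Set.range fun σ : K ≃ₐ[k] K => σ z := by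
    rintro _ ⟨c, rfl⟩
    obtain ⟨σ, hσ⟩ := exists_algEquiv_apply_eq_add hz' c
    exact ⟨σ, hσ⟩
  exact (Set.infinite_range_of_injective hinj) (h.subset hsub)

/-- If a finite index subgroup of `Aut(K/k)` fixes `z`, then `z` is algebraic over `k`. -/
theorem isAlgebraic_of_finiteIndex_fixed [IsAlgClosed K] [Infinite k] {z : K}
    (H : Subgroup (K ≃ₐ[k] K)) [H.FiniteIndex] (hH : ∀ σ ∈ H, σ z = z) : IsAlgebraic k z := by
  apply isAlgebraic_of_finite_orbit
  haveI : Finite ((K ≃ₐ[k] K) ⧸ H) := Subgroup.finite_quotient_of_finiteIndex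
  -- the orbit map factors through the quotient
  let f : (K ≃ₐ[k] K) ⧸ H → K := Quotient.lift (fun σ : K ≃ₐ[k] K => σ z) (by
    intro σ τ hστ
    have h1 : σ⁻¹ * τ ∈ H := QuotientGroup.leftRel_apply.mp hστ
    have h2 := hH _ h1
    have h3 : τ z = σ ((σ⁻¹ * τ) z) := by
      rw [AlgEquiv.mul_apply, ← AlgEquiv.mul_apply, mul_inv_cancel, AlgEquiv.one_apply]
    show σ z = τ z
    rw [h3, h2])
  have hsub : (Set.range fun σ : K ≃ₐ[k] K => σ z) ⊆ Set.range f := by
    rintro _ ⟨σ, rfl⟩
    exact ⟨QuotientGroup.mk σ, rfl⟩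
  exact (Set.finite_range f).subset hsub

/-- If `k` is algebraically closed, an element of `K` fixed by a finite index subgroup of
`Aut(K/k)` lies in `k`. -/
theorem mem_range_algebraMap_of_finiteIndex_fixed [IsAlgClosed K] [IsAlgClosed k] {z : K}
    (H : Subgroup (K ≃ₐ[k] K)) [H.FiniteIndex] (hH : ∀ σ ∈ H, σ z = z) :
    z ∈ Set.range (algebraMap k K) := by
  haveI : Infinite k := IsAlgClosed.instInfinite
  have hz := isAlgebraic_of_finiteIndex_fixed H hH
  have hint : IsIntegral k z := hz.isIntegral
  have hdeg : (minpoly k z).degree = 1 :=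
    IsAlgClosed.degree_eq_one_of_irreducible k (minpoly.irreducible hint)
  have := (minpoly.degree_eq_one_iff (A := k) (B := K) (x := z)).mp hdeg
  exact this

/-- If a finite set `T ⊆ K` is stable under a finite index subgroup of `Aut(K/k)`, then all its
elements are algebraic over `k`. -/
theorem isAlgebraic_of_finite_stable [IsAlgClosed K] [Infinite k]
    (H : Subgroup (K ≃ₐ[k] K)) [H.FiniteIndex] {T : Set K} (hT : T.Finite)
    (hH : ∀ σ ∈ H, ∀ x ∈ T, σ x ∈ T) {z : K} (hz : z ∈ T) : IsAlgebraic k z := by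
  apply isAlgebraic_of_finite_orbit
  haveI : Finite ((K ≃ₐ[k] K) ⧸ H) := Subgroup.finite_quotient_of_finiteIndex
  -- the orbit is contained in the union of the translates of `T` by coset representatives
  have hsub : (Set.range fun σ : K ≃ₐ[k] K => σ z) ⊆
      ⋃ q : (K ≃ₐ[k] K) ⧸ H, (fun x => (Quotient.out q) x) '' T := by
    rintro _ ⟨σ, rfl⟩
    rw [Set.mem_iUnion]
    refine ⟨QuotientGroup.mk σ, ?_⟩
    set τ := Quotient.out (QuotientGroup.mk σ : (K ≃ₐ[k] K) ⧸ H) with hτ
    have h1 : τ⁻¹ * σ ∈ H := by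
      have : (QuotientGroup.mk τ : (K ≃ₐ[k] K) ⧸ H) = QuotientGroup.mk σ :=
        Quotient.out_eq _
      exact QuotientGroup.eq.mp this
    refine ⟨(τ⁻¹ * σ) z, hH _ h1 z hz, ?_⟩
    show τ ((τ⁻¹ * σ) z) = σ z
    rw [← AlgEquiv.mul_apply, mul_inv_cancel_left]
  exact (Set.finite_iUnion fun q => hT.image _).subset hsub

/-- If `k` is algebraically closed and a finite set `T ⊆ K` is stable under a finite index
subgroup of `Aut(K/k)`, then `T` consists of elements of `k`. -/
theorem mem_range_algebraMap_of_finite_stable [IsAlgClosed K] [IsAlgClosed k]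
    (H : Subgroup (K ≃ₐ[k] K)) [H.FiniteIndex] {T : Set K} (hT : T.Finite)
    (hH : ∀ σ ∈ H, ∀ x ∈ T, σ x ∈ T) {z : K} (hz : z ∈ T) :
    z ∈ Set.range (algebraMap k K) := by
  haveI : Infinite k := IsAlgClosed.instInfinite
  have hint : IsIntegral k z := (isAlgebraic_of_finite_stable H hT hH hz).isIntegral
  have hdeg : (minpoly k z).degree = 1 :=
    IsAlgClosed.degree_eq_one_of_irreducible k (minpoly.irreducible hint)
  exact (minpoly.degree_eq_one_iff (A := k) (B := K) (x := z)).mp hdeg

/-- The stabiliser of a point of a finite set on which a group acts has finite index: stated for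
an action of `Aut(K/k)` on an arbitrary type with a finite orbit. -/
theorem finiteIndex_stabilizer_of_finite {G X : Type*} [Group G] [MulAction G X] [Finite X]
    (x : X) : (MulAction.stabilizer G x).FiniteIndex := by
  haveI : Finite (MulAction.orbit G x) := Subtype.finite
  haveI : Finite (G ⧸ MulAction.stabilizer G x) :=
    Finite.of_equiv _ (MulAction.orbitEquivQuotientStabilizer G x)
  exact Subgroup.finiteIndex_of_finite_quotient

end Main

end Fermat.Agent.H53
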