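import Mathlib

/-!
# Representations all of whose elements satisfy a quadratic relation

`G` a group, `F` a finite field, `ρ₀ : G →* End_F(V₀)` a nonzero finite dimensional
representation, `χ : G →* Fˣ` a character and `a : G → F` a function with
`ρ₀ g ^ 2 - a g • ρ₀ g + χ g = 0` for all `g`.  Then there is a two dimensional representation
`ρ` of `G` over `F` with `charpoly (ρ g) = X ^ 2 - a g X + χ g` for all `g`, whose kernel
contains `ker ρ₀ ∩ ker χ`.
-/

set_option autoImplicit false

open Polynomial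

noncomputable section

namespace Fermat.Agent.H53

section Basic

variable {G : Type*} [Group G] {F : Type*} [Field F]
variable {V : Type*} [AddCommGroup V] [Module F V]

/-- Every group element satisfies the quadratic relation `x ^ 2 - a x + χ = 0`. -/
def QuadRel (ρ : G →* Module.End F V) (χ : G →* Fˣ) (a : G → F) : Prop :=
  ∀ g, ρ g * ρ g - a g • ρ g + ((χ g : Fˣ) : F) • (1 : Module.End F V) = 0

/-- No nontrivial invariant subspaces. -/
def IsSimpleRep (ρ : G →* Module.End F V) : Prop :=
  ∀ W : Submodule F V, (∀ g, ∀ x ∈ W, ρ g x ∈ W) → W = ⊥ ∨ W = ⊤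

theorem rep_mul_inv (ρ : G →* Module.End F V) (g : G) : ρ g * ρ g⁻¹ = 1 := by
  rw [← map_mul, mul_inv_cancel, map_one]

theorem rep_inv_mul (ρ : G →* Module.End F V) (g : G) : ρ g⁻¹ * ρ g = 1 := by
  rw [← map_mul, inv_mul_cancel, map_one]

theorem QuadRel.add_inv {ρ : G →* Module.End F V} {χ : G →* Fˣ} {a : G → F}
    (h : QuadRel ρ χ a) (g : G) :
    ρ g + ((χ g : Fˣ) : F) • ρ g⁻¹ = a g • (1 : Module.End F V) := by
  have h1 := h g
  have h2 : (ρ g * ρ g - a g • ρ g + ((χ g : Fˣ) : F) • (1 : Module.End F V)) * ρ g⁻¹ = 0 := by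
    rw [h1, zero_mul]
  rw [add_mul, sub_mul, mul_assoc, rep_mul_inv, mul_one, smul_mul_assoc, rep_mul_inv,
    smul_mul_assoc, one_mul] at h2
  rw [← sub_eq_zero]
  rw [← h2]
  abel

theorem QuadRel.apply {ρ : G →* Module.End F V} {χ : G →* Fˣ} {a : G → F}
    (h : QuadRel ρ χ a) (g : G) (v : V) :
    ρ g (ρ g v) = a g • ρ g v - ((χ g : Fˣ) : F) • v := by
  have h1 := congrArg (fun f : Module.End F V => f v) (h g)
  simp only [LinearMap.add_apply, LinearMap.sub_apply, Module.End.mul_apply,
    LinearMap.smul_apply, Module.End.one_apply, LinearMap.zero_apply] at h1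
  rw [← sub_eq_zero, ← h1]
  abel

/-- The linear combination `∑ c_g ρ(g)`. -/
def repSum (ρ : G →* Module.End F V) : (G →₀ F) →ₗ[F] Module.End F V :=
  Finsupp.linearCombination F (fun g => ρ g)

/-- The conjugate linear combination `∑ c_g χ(g) ρ(g⁻¹)`. -/
def repSumBar (ρ : G →* Module.End F V) (χ : G →* Fˣ) : (G →₀ F) →ₗ[F] Module.End F V :=
  Finsupp.linearCombination F (fun g => ((χ g : Fˣ) : F) • ρ g⁻¹)

theorem repSum_single (ρ : G →* Module.End F V) (g : G) (r : F) :
    repSum ρ (Finsupp.single g r) = r • ρ g := by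
  simp [repSum]

theorem repSumBar_single (ρ : G →* Module.End F V) (χ : G →* Fˣ) (g : G) (r : F) :
    repSumBar ρ χ (Finsupp.single g r) = r • ((χ g : Fˣ) : F) • ρ g⁻¹ := by
  simp [repSumBar]

theorem mem_span_range_iff_repSum (ρ : G →* Module.End F V) (x : Module.End F V) :
    x ∈ Submodule.span F (Set.range ρ) ↔ ∃ c : G →₀ F, repSum ρ c = x := by
  rw [Finsupp.mem_span_range_iff_exists_finsupp]
  rfl

/-- `ν ρ(h) + χ(h) ρ(h)⁻¹ ν̄` is a scalar. -/
theorem QuadRel.repSum_mul_add {ρ : G →* Module.End F V} {χ : G →* Fˣ} {a : G → F}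
    (hrel : QuadRel ρ χ a) (c : G →₀ F) (h : G) :
    ∃ s : F, repSum ρ c * ρ h + ((χ h : Fˣ) : F) • (ρ h⁻¹ * repSumBar ρ χ c) =
      s • (1 : Module.End F V) := by
  induction c using Finsupp.induction_linear with
  | zero => exact ⟨0, by simp⟩
  | add c d hc hd =>
    obtain ⟨s, hs⟩ := hc
    obtain ⟨t, ht⟩ := hd
    refine ⟨s + t, ?_⟩
    rw [map_add, map_add, add_mul, mul_add, smul_add, add_smul, ← hs, ← ht]
    abel
  | single g r =>
    refine ⟨r * a (g * h), ?_⟩
    rw [repSum_single, repSumBar_single, mul_smul, ← hrel.add_inv (g * h), smul_add]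
    congr 1
    · rw [smul_mul_assoc, map_mul]
    · rw [mul_smul_comm, mul_smul_comm, mul_inv_rev, map_mul, map_mul, Units.val_mul,
        smul_smul, smul_smul, smul_smul]
      congr 1
      ring

/-- `ν̄ ρ(h) + χ(h) ρ(h)⁻¹ ν` is a scalar. -/
theorem QuadRel.repSumBar_mul_add {ρ : G →* Module.End F V} {χ : G →* Fˣ} {a : G → F}
    (hrel : QuadRel ρ χ a) (c : G →₀ F) (h : G) :
    ∃ s : F, repSumBar ρ χ c * ρ h + ((χ h : Fˣ) : F) • (ρ h⁻¹ * repSum ρ c) =
      s • (1 : Module.End F V) := by
  induction c using Finsupp.induction_linear with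
  | zero => exact ⟨0, by simp⟩
  | add c d hc hd =>
    obtain ⟨s, hs⟩ := hc
    obtain ⟨t, ht⟩ := hd
    refine ⟨s + t, ?_⟩
    rw [map_add, map_add, add_mul, mul_add, smul_add, add_smul, ← hs, ← ht]
    abel
  | single g r =>
    refine ⟨r * ((χ g : Fˣ) : F) * a (g⁻¹ * h), ?_⟩
    rw [repSum_single, repSumBar_single, mul_smul, mul_smul, ← hrel.add_inv (g⁻¹ * h), smul_add,
      smul_add]
    congr 1
    · rw [smul_mul_assoc, smul_mul_assoc, map_mul]
    · rw [mul_smul_comm, mul_inv_rev, inv_inv, map_mul ρ, map_mul χ, map_inv χ, Units.val_mul,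
        smul_smul, smul_smul, smul_smul]
      congr 1
      rw [Units.val_inv_eq_inv_val]
      have hne : ((χ g : Fˣ) : F) ≠ 0 := Units.ne_zero _
      field_simp

/-- In a simple representation the orbit of a nonzero vector spans everything. -/
theorem IsSimpleRep.span_orbit_eq_top {ρ : G →* Module.End F V} (hs : IsSimpleRep ρ) {k : V}
    (hk : k ≠ 0) : Submodule.span F (Set.range fun h : G => ρ h k) = ⊤ := by
  have hinv : ∀ g, ∀ x ∈ Submodule.span F (Set.range fun h : G => ρ h k),
      ρ g x ∈ Submodule.span F (Set.range fun h : G => ρ h k) := by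
    intro g x hx
    have hle : (Submodule.span F (Set.range fun h : G => ρ h k)).map (ρ g) ≤
        Submodule.span F (Set.range fun h : G => ρ h k) := by
      rw [Submodule.map_span, Submodule.span_le]
      rintro _ ⟨_, ⟨h, rfl⟩, rfl⟩
      apply Submodule.subset_span
      refine ⟨g * h, ?_⟩
      simp only [map_mul, Module.End.mul_apply]
    exact hle (Submodule.mem_map_of_mem hx)
  rcases hs _ hinv with h0 | h1
  · exfalso
    have hmem : k ∈ Submodule.span F (Set.range fun h : G => ρ h k) := by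
      apply Submodule.subset_span
      exact ⟨1, by simp⟩
    rw [h0, Submodule.mem_bot] at hmem
    exact hk hmem
  · exact h1

/-- If a linear map sends the orbit of `k` into a submodule, its range lies in that submodule. -/
theorem IsSimpleRep.range_le_of_orbit {ρ : G →* Module.End F V} (hs : IsSimpleRep ρ) {k : V}
    (hk : k ≠ 0) (f : Module.End F V) (W : Submodule F V) (hf : ∀ h : G, f (ρ h k) ∈ W) :
    LinearMap.range f ≤ W := by
  rw [LinearMap.range_le_iff_comap, eq_top_iff, ← hs.span_orbit_eq_top hk, Submodule.span_le]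
  rintro _ ⟨h, rfl⟩
  exact hf h

theorem QuadRel.range_repSumBar_le {ρ : G →* Module.End F V} {χ : G →* Fˣ} {a : G → F}
    (hrel : QuadRel ρ χ a) (hs : IsSimpleRep ρ) (c : G →₀ F) {k : V} (hk : k ≠ 0)
    (hνk : repSum ρ c k = 0) : LinearMap.range (repSumBar ρ χ c) ≤ Submodule.span F {k} := by
  apply hs.range_le_of_orbit hk
  intro h
  obtain ⟨s, hs'⟩ := hrel.repSumBar_mul_add c h
  have h1 := congrArg (fun f : Module.End F V => f k) hs'
  simp only [LinearMap.add_apply, Module.End.mul_apply, LinearMap.smul_apply, hνk, map_zero,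
    smul_zero, add_zero, Module.End.one_apply] at h1
  rw [h1]
  exact Submodule.smul_mem _ _ (Submodule.mem_span_singleton_self k)

theorem QuadRel.range_repSum_le {ρ : G →* Module.End F V} {χ : G →* Fˣ} {a : G → F}
    (hrel : QuadRel ρ χ a) (hs : IsSimpleRep ρ) (c : G →₀ F) {k : V} (hk : k ≠ 0)
    (hνk : repSumBar ρ χ c k = 0) : LinearMap.range (repSum ρ c) ≤ Submodule.span F {k} := by
  apply hs.range_le_of_orbit hk
  intro h
  obtain ⟨s, hs'⟩ := hrel.repSum_mul_add c h
  have h1 := congrArg (fun f : Module.End F V => f k) hs'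
  simp only [LinearMap.add_apply, Module.End.mul_apply, LinearMap.smul_apply, hνk, map_zero,
    smul_zero, add_zero, Module.End.one_apply] at h1
  rw [h1]
  exact Submodule.smul_mem _ _ (Submodule.mem_span_singleton_self k)

theorem QuadRel.repSumBar_ne_zero {ρ : G →* Module.End F V} {χ : G →* Fˣ} {a : G → F}
    (hrel : QuadRel ρ χ a) (c : G →₀ F) (hν : repSum ρ c ≠ 0) {k : V} (hk : k ≠ 0)
    (hνk : repSum ρ c k = 0) : repSumBar ρ χ c ≠ 0 := by
  intro h0
  obtain ⟨s, hs'⟩ := hrel.repSum_mul_add c 1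
  rw [h0, mul_zero, smul_zero, add_zero, map_one, mul_one] at hs'
  have h1 := congrArg (fun f : Module.End F V => f k) hs'
  simp only [hνk, LinearMap.smul_apply, Module.End.one_apply] at h1
  have hs0 : s = 0 := by
    by_contra hne
    exact hk ((smul_eq_zero.mp h1.symm).resolve_left hne)
  rw [hs0, zero_smul] at hs'
  exact hν hs'

/-- Key step: in a simple representation satisfying the quadratic relation, a nonzero element of
the span of the image with nonzero kernel forces dimension at most two. -/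
theorem QuadRel.finrank_le_two_of_ker {ρ : G →* Module.End F V} {χ : G →* Fˣ} {a : G → F}
    [FiniteDimensional F V]
    (hrel : QuadRel ρ χ a) (hs : IsSimpleRep ρ) (c : G →₀ F) (hν : repSum ρ c ≠ 0) {k : V}
    (hk : k ≠ 0) (hνk : repSum ρ c k = 0) : Module.finrank F V ≤ 2 := by
  have hb0 := hrel.repSumBar_ne_zero c hν hk hνk
  have hrb := hrel.range_repSumBar_le hs c hk hνk
  -- the range of `ν̄` has dimension at most one
  have hfr1 : Module.finrank F (LinearMap.range (repSumBar ρ χ c)) ≤ 1 :=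
    (Submodule.finrank_mono hrb).trans (finrank_span_singleton hk).le
  -- the kernel of `ν` is contained in the range of `ν̄`
  have hker_le : LinearMap.ker (repSum ρ c) ≤ LinearMap.range (repSumBar ρ χ c) := by
    intro k₂ hk₂
    by_cases hk₂0 : k₂ = 0
    · rw [hk₂0]; exact Submodule.zero_mem _
    have hle := hrel.range_repSumBar_le hs c hk₂0 (LinearMap.mem_ker.mp hk₂)
    obtain ⟨w, hw⟩ : ∃ w, repSumBar ρ χ c w ≠ 0 := by
      by_contra hcon
      exact hb0 (LinearMap.ext fun w => by
        by_contra hw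
        exact hcon ⟨w, hw⟩)
    have hmem : repSumBar ρ χ c w ∈ Submodule.span F {k₂} := hle ⟨w, rfl⟩
    obtain ⟨r, hr⟩ := Submodule.mem_span_singleton.mp hmem
    have hr0 : r ≠ 0 := by
      rintro rfl
      rw [zero_smul] at hr
      exact hw hr.symm
    have : k₂ = r⁻¹ • repSumBar ρ χ c w := by
      rw [← hr, smul_smul, inv_mul_cancel₀ hr0, one_smul]
    rw [this]
    exact Submodule.smul_mem _ _ ⟨w, rfl⟩
  have hfk : Module.finrank F (LinearMap.ker (repSum ρ c)) ≤ 1 :=
    (Submodule.finrank_mono hker_le).trans hfr1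
  by_cases hkb : LinearMap.ker (repSumBar ρ χ c) = ⊥
  · have h1 := LinearMap.finrank_range_add_finrank_ker (repSumBar ρ χ c)
    rw [hkb, finrank_bot, add_zero] at h1
    omega
  · obtain ⟨k', hk'mem, hk'0⟩ := (Submodule.ne_bot_iff _).mp hkb
    have hrr := hrel.range_repSum_le hs c hk'0 (LinearMap.mem_ker.mp hk'mem)
    have hfr2 : Module.finrank F (LinearMap.range (repSum ρ c)) ≤ 1 :=
      (Submodule.finrank_mono hrr).trans (finrank_span_singleton hk'0).le
    have h1 := LinearMap.finrank_range_add_finrank_ker (repSum ρ c)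
    omega

/-- The subalgebra spanned by the image of `ρ`. -/
def repAlg (ρ : G →* Module.End F V) : Subalgebra F (Module.End F V) :=
  (MonoidAlgebra.lift F (Module.End F V) G ρ).range

theorem lift_eq_repSum (ρ : G →* Module.End F V) (f : MonoidAlgebra F G) :
    MonoidAlgebra.lift F (Module.End F V) G ρ f = repSum ρ f.coeff := by
  rw [MonoidAlgebra.lift_apply, repSum, Finsupp.linearCombination_apply]

theorem mem_repAlg_iff (ρ : G →* Module.End F V) (x : Module.End F V) :
    x ∈ repAlg ρ ↔ ∃ c : G →₀ F, repSum ρ c = x := by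
  constructor
  · rintro ⟨f, rfl⟩
    exact ⟨f.coeff, (lift_eq_repSum ρ f).symm⟩
  · rintro ⟨c, rfl⟩
    exact ⟨MonoidAlgebra.ofCoeff c, lift_eq_repSum ρ _⟩

theorem rep_mem_repAlg (ρ : G →* Module.End F V) (g : G) : ρ g ∈ repAlg ρ :=
  (mem_repAlg_iff ρ _).mpr ⟨Finsupp.single g 1, by rw [repSum_single, one_smul]⟩

/-- The span of `v` and `ρ g₀ v` is stable under `ρ (g₀ ^ k)`. -/
theorem QuadRel.zpow_mem_span {ρ : G →* Module.End F V} {χ : G →* Fˣ} {a : G → F}
    (hrel : QuadRel ρ χ a) (g₀ : G) (v : V) (k : ℤ) :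
    ∀ w ∈ Submodule.span F {v, ρ g₀ v}, ρ (g₀ ^ k) w ∈ Submodule.span F {v, ρ g₀ v} := by
  set W : Submodule F V := Submodule.span F {v, ρ g₀ v} with hW
  have hv : v ∈ W := Submodule.subset_span (by simp)
  have hgv : ρ g₀ v ∈ W := Submodule.subset_span (by simp)
  -- stability under `ρ g₀`
  have h1 : ∀ w ∈ W, ρ g₀ w ∈ W := by
    intro w hw
    have hle : W.map (ρ g₀) ≤ W := by
      rw [hW, Submodule.map_span, Submodule.span_le]
      rintro _ ⟨x, hx, rfl⟩
      rcases hx with rfl | hx
      · exact hgv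
      · rw [Set.mem_singleton_iff] at hx
        rw [hx, hrel.apply]
        exact W.sub_mem (W.smul_mem _ hgv) (W.smul_mem _ hv)
    exact hle (Submodule.mem_map_of_mem hw)
  -- stability under `ρ g₀⁻¹`
  have h2 : ∀ w ∈ W, ρ g₀⁻¹ w ∈ W := by
    intro w hw
    have hinv : ∀ x : V, ρ g₀⁻¹ x = (((χ g₀ : Fˣ) : F))⁻¹ • (a g₀ • x - ρ g₀ x) := by
      intro x
      have h3 := congrArg (fun f : Module.End F V => f x) (hrel.add_inv g₀)
      simp only [LinearMap.add_apply, LinearMap.smul_apply, Module.End.one_apply] at h3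
      rw [← h3, add_sub_cancel_left, smul_smul, inv_mul_cancel₀ (Units.ne_zero _), one_smul]
    rw [hinv]
    exact W.smul_mem _ (W.sub_mem (W.smul_mem _ hw) (h1 w hw))
  have hpow : ∀ (g : G), (∀ w ∈ W, ρ g w ∈ W) → ∀ n : ℕ, ∀ w ∈ W, ρ (g ^ n) w ∈ W := by
    intro g hg n
    induction n with
    | zero => intro w hw; simpa using hw
    | succ n ih =>
      intro w hw
      rw [pow_succ, map_mul, Module.End.mul_apply]
      exact ih _ (hg w hw)
  rcases k with n | n
  · intro w hw
    rw [Int.ofNat_eq_natCast, zpow_natCast]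
    exact hpow g₀ h1 n w hw
  · intro w hw
    rw [zpow_negSucc, ← inv_pow]
    exact hpow g₀⁻¹ h2 (n + 1) w hw

/-- If every element of `ρ(G)` is `ρ` of a power of `g₀`, a simple representation satisfying the
quadratic relation has dimension at most two. -/
theorem QuadRel.finrank_le_two_of_cyclic {ρ : G →* Module.End F V} {χ : G →* Fˣ} {a : G → F}
    [FiniteDimensional F V] [Nontrivial V]
    (hrel : QuadRel ρ χ a) (hs : IsSimpleRep ρ) (g₀ : G)
    (hcyc : ∀ g : G, ∃ k : ℤ, ρ g = ρ (g₀ ^ k)) : Module.finrank F V ≤ 2 := by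
  obtain ⟨v, hv⟩ := exists_ne (0 : V)
  have hinv : ∀ g, ∀ x ∈ Submodule.span F {v, ρ g₀ v}, ρ g x ∈ Submodule.span F {v, ρ g₀ v} := by
    intro g x hx
    obtain ⟨k, hk⟩ := hcyc g
    rw [hk]
    exact hrel.zpow_mem_span g₀ v k x hx
  rcases hs _ hinv with h0 | h1
  · exfalso
    have hmem : v ∈ Submodule.span F {v, ρ g₀ v} := Submodule.subset_span (by simp)
    rw [h0, Submodule.mem_bot] at hmem
    exact hv hmem
  · have h2 : Module.finrank F (Submodule.span F ({v, ρ g₀ v} : Set V)) ≤ 2 := by
      classical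
      have h3 := finrank_span_finset_le_card (R := F) ({v, ρ g₀ v} : Finset V)
      have h4 : (({v, ρ g₀ v} : Finset V) : Set V) = {v, ρ g₀ v} := by simp
      rw [h4] at h3
      exact h3.trans (Finset.card_le_two)
    rw [h1, finrank_top] at h2
    exact h2

/-- If the algebra spanned by `ρ(G)` has no zero divisors (and `F` is finite), then `ρ(G)` is
cyclic: little Wedderburn. -/
theorem exists_cyclic_of_domain [Finite F] [FiniteDimensional F V] [Nontrivial V]
    (ρ : G →* Module.End F V)
    (hdom : ∀ x ∈ repAlg ρ, ∀ y ∈ repAlg ρ, x * y = 0 → x = 0 ∨ y = 0) :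
    ∃ g₀ : G, ∀ g : G, ∃ k : ℤ, ρ g = ρ (g₀ ^ k) := by
  have : Finite (Module.End F V) := Module.finite_of_finite F
  have : Finite ↥(repAlg ρ) := Subtype.finite
  have : NoZeroDivisors ↥(repAlg ρ) := by
    refine ⟨fun {x y} h => ?_⟩
    have h' : (x : Module.End F V) * (y : Module.End F V) = 0 := by
      have := congrArg Subtype.val h
      simpa using this
    rcases hdom x x.2 y y.2 h' with h0 | h0
    · exact Or.inl (Subtype.ext h0)
    · exact Or.inr (Subtype.ext h0)
  have : Nontrivial ↥(repAlg ρ) := by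
    refine ⟨⟨0, 1, fun h => ?_⟩⟩
    have := congrArg Subtype.val h
    simp only [ZeroMemClass.coe_zero, OneMemClass.coe_one] at this
    exact zero_ne_one this
  have : IsDomain ↥(repAlg ρ) := NoZeroDivisors.to_isDomain _
  have hfield := Finite.isDomain_to_isField ↥(repAlg ρ)
  let _ : Field ↥(repAlg ρ) := hfield.toField
  let ρB : G →* ↥(repAlg ρ) :=
    { toFun := fun g => ⟨ρ g, rep_mem_repAlg ρ g⟩
      map_one' := Subtype.ext (map_one ρ)
      map_mul' := fun g h => Subtype.ext (map_mul ρ g h) }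
  let ρu : G →* (↥(repAlg ρ))ˣ := ρB.toHomUnits
  have : IsCyclic ρu.range := by
    refine isCyclic_of_injective_ringHom ((Units.coeHom ↥(repAlg ρ)).comp ρu.range.subtype) ?_
    intro x y hxy
    apply Subtype.ext
    apply Units.ext
    exact hxy
  obtain ⟨γ, hγ⟩ := IsCyclic.exists_generator (α := ρu.range)
  obtain ⟨g₀, hg₀⟩ := γ.2
  refine ⟨g₀, fun g => ?_⟩
  have hmem := hγ ⟨ρu g, ⟨g, rfl⟩⟩
  obtain ⟨k, hk⟩ := Subgroup.mem_zpowers_iff.mp hmem
  refine ⟨k, ?_⟩
  have h1 : (γ : (↥(repAlg ρ))ˣ) ^ k = ρu g := by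
    have := congrArg Subtype.val hk
    simpa using this
  rw [← hg₀, ← map_zpow] at h1
  have h2 := congrArg (fun u : (↥(repAlg ρ))ˣ => ((u : ↥(repAlg ρ)) : Module.End F V)) h1
  exact h2.symm

/-- A simple representation over a finite field all of whose elements satisfy the quadratic
relation has dimension at most two. -/
theorem QuadRel.finrank_le_two {ρ : G →* Module.End F V} {χ : G →* Fˣ} {a : G → F}
    [Finite F] [FiniteDimensional F V] [Nontrivial V]
    (hrel : QuadRel ρ χ a) (hs : IsSimpleRep ρ) : Module.finrank F V ≤ 2 := by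
  by_cases hdom : ∀ x ∈ repAlg ρ, ∀ y ∈ repAlg ρ, x * y = 0 → x = 0 ∨ y = 0
  · obtain ⟨g₀, hg₀⟩ := exists_cyclic_of_domain ρ hdom
    exact hrel.finrank_le_two_of_cyclic hs g₀ hg₀
  · simp only [not_forall, not_or] at hdom
    obtain ⟨x, hx, y, _, hxy, hx0, hy0⟩ := hdom
    obtain ⟨c, rfl⟩ := (mem_repAlg_iff ρ x).mp hx
    obtain ⟨w, hw⟩ : ∃ w, y w ≠ 0 := by
      by_contra hcon
      exact hy0 (LinearMap.ext fun w => by
        by_contra hw
        exact hcon ⟨w, hw⟩)
    have hk : repSum ρ c (y w) = 0 := by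
      have := congrArg (fun f : Module.End F V => f w) hxy
      simpa using this
    exact hrel.finrank_le_two_of_ker hs c hx0 hw hk

/-! ### Characteristic polynomials -/

theorem charpoly_smul_one_eq [FiniteDimensional F V] (c : F) :
    LinearMap.charpoly (c • (1 : Module.End F V)) = (X - C c) ^ Module.finrank F V := by
  classical
  rw [LinearMap.charpoly_def, map_smul]
  have h1 : LinearMap.toMatrix (Module.Free.chooseBasis F V) (Module.Free.chooseBasis F V)
      (1 : Module.End F V) = 1 := LinearMap.toMatrix_one _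
  rw [h1, Matrix.smul_one_eq_diagonal, Matrix.charpoly_diagonal, Finset.prod_const,
    Finset.card_univ, Module.finrank_eq_card_chooseBasisIndex]

/-- A non-scalar endomorphism of a two dimensional space satisfying a monic quadratic equation has
that quadratic as characteristic polynomial. -/
theorem charpoly_eq_of_quadratic_of_nonscalar [FiniteDimensional F V]
    (h2 : Module.finrank F V = 2) (x : Module.End F V) (a b : F)
    (hx : x * x - a • x + b • (1 : Module.End F V) = 0)
    (hns : ∀ c : F, x ≠ c • (1 : Module.End F V)) :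
    LinearMap.charpoly x = X ^ 2 - C a * X + C b := by
  have _hnt : Nontrivial V := Module.nontrivial_of_finrank_pos (R := F) (by omega)
  set q : F[X] := X ^ 2 - C a * X + C b with hq
  have hq' : q = C 1 * X ^ 2 + C (-a) * X + C b := by
    rw [hq]
    simp only [map_one, one_mul, map_neg, neg_mul]
    ring
  have hqdeg : q.natDegree = 2 := by
    rw [hq']
    exact natDegree_quadratic one_ne_zero
  have hqmonic : q.Monic := by
    rw [hq']
    exact leadingCoeff_quadratic one_ne_zero
  have hcdeg : (LinearMap.charpoly x).natDegree = 2 := by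
    rw [LinearMap.charpoly_natDegree, h2]
  have hcmonic := LinearMap.charpoly_monic x
  have haq : aeval x q = 0 := by
    rw [hq]
    simp only [map_add, map_sub, aeval_X, map_mul, aeval_C, pow_two,
      Algebra.algebraMap_eq_smul_one, smul_mul_assoc, one_mul]
    exact hx
  have hac : aeval x (LinearMap.charpoly x) = 0 := LinearMap.aeval_self_charpoly x
  set p : F[X] := LinearMap.charpoly x - q with hp
  have hap : aeval x p = 0 := by rw [hp, map_sub, hac, haq, sub_zero]
  have hpdeg : p.natDegree ≤ 1 := by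
    rw [natDegree_le_iff_coeff_eq_zero]
    intro N hN
    rw [hp, coeff_sub]
    rcases Nat.lt_or_ge 2 N with h | h
    · rw [coeff_eq_zero_of_natDegree_lt (by omega), coeff_eq_zero_of_natDegree_lt (by omega),
        sub_zero]
    · have hN2 : N = 2 := by omega
      subst hN2
      have e1 : (LinearMap.charpoly x).coeff 2 = 1 := by
        have := hcmonic.coeff_natDegree
        rwa [hcdeg] at this
      have e2 : q.coeff 2 = 1 := by
        have := hqmonic.coeff_natDegree
        rwa [hqdeg] at this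
      rw [e1, e2, sub_self]
  have hpform := eq_X_add_C_of_natDegree_le_one hpdeg
  have hap' : p.coeff 1 • x + p.coeff 0 • (1 : Module.End F V) = 0 := by
    rw [hpform] at hap
    simpa [Algebra.algebraMap_eq_smul_one] using hap
  have hc1 : p.coeff 1 = 0 := by
    by_contra hne
    apply hns (-(p.coeff 1)⁻¹ * p.coeff 0)
    have h3 : p.coeff 1 • x = -(p.coeff 0 • (1 : Module.End F V)) := eq_neg_of_add_eq_zero_left hap'
    calc x = (p.coeff 1)⁻¹ • (p.coeff 1 • x) := by
          rw [smul_smul, inv_mul_cancel₀ hne, one_smul]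
      _ = (-(p.coeff 1)⁻¹ * p.coeff 0) • (1 : Module.End F V) := by
          rw [h3, smul_neg, smul_smul, neg_mul, neg_smul]
  have hc0 : p.coeff 0 = 0 := by
    rw [hc1, zero_smul, zero_add] at hap'
    by_contra hne
    have h3 : (1 : Module.End F V) = 0 := (smul_eq_zero.mp hap').resolve_left hne
    exact one_ne_zero h3
  have hp0 : p = 0 := by
    rw [hpform, hc1, hc0]
    simp
  rw [hp] at hp0
  exact sub_eq_zero.mp hp0

/-- In a simple representation of dimension two some group element is not a scalar. -/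
theorem IsSimpleRep.exists_nonscalar [FiniteDimensional F V] {ρ : G →* Module.End F V}
    (hs : IsSimpleRep ρ) (h2 : Module.finrank F V = 2) :
    ∃ h : G, ∀ c : F, ρ h ≠ c • (1 : Module.End F V) := by
  by_contra hcon
  have hsc : ∀ h : G, ∃ c : F, ρ h = c • (1 : Module.End F V) := by
    intro h
    by_contra hh
    exact hcon ⟨h, fun c hc => hh ⟨c, hc⟩⟩
  have _hnt : Nontrivial V := Module.nontrivial_of_finrank_pos (R := F) (by omega)
  obtain ⟨v, hv⟩ := exists_ne (0 : V)
  have hinv : ∀ g, ∀ x ∈ Submodule.span F {v}, ρ g x ∈ Submodule.span F {v} := by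
    intro g x hx
    obtain ⟨c, hc⟩ := hsc g
    rw [hc, LinearMap.smul_apply, Module.End.one_apply]
    exact Submodule.smul_mem _ _ hx
  rcases hs _ hinv with h0 | h1
  · have hmem : v ∈ Submodule.span F {v} := Submodule.mem_span_singleton_self v
    rw [h0, Submodule.mem_bot] at hmem
    exact hv hmem
  · have h3 : Module.finrank F (Submodule.span F ({v} : Set V)) = 1 := finrank_span_singleton hv
    rw [h1, finrank_top, h2] at h3
    omega

/-- In a simple two dimensional representation satisfying the quadratic relation, the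
characteristic polynomial of every element is the given quadratic. -/
theorem QuadRel.charpoly_eq {ρ : G →* Module.End F V} {χ : G →* Fˣ} {a : G → F}
    [FiniteDimensional F V] (hrel : QuadRel ρ χ a) (hs : IsSimpleRep ρ)
    (h2 : Module.finrank F V = 2) (g : G) :
    LinearMap.charpoly (ρ g) = X ^ 2 - C (a g) * X + C ((χ g : Fˣ) : F) := by
  have _hnt : Nontrivial V := Module.nontrivial_of_finrank_pos (R := F) (by omega)
  have hone : (1 : Module.End F V) ≠ 0 := one_ne_zero
  by_cases hns : ∀ c : F, ρ g ≠ c • (1 : Module.End F V)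
  · exact charpoly_eq_of_quadratic_of_nonscalar h2 (ρ g) (a g) _ (hrel g) hns
  · simp only [not_forall, not_not] at hns
    obtain ⟨c, hc⟩ := hns
    obtain ⟨h, hh⟩ := hs.exists_nonscalar h2
    have hc0 : c ≠ 0 := by
      rintro rfl
      rw [zero_smul] at hc
      have := rep_mul_inv ρ g
      rw [hc, zero_mul] at this
      exact hone this.symm
    -- relation for `h` and for `g * h`
    have r1 := hrel h
    have r2 := hrel (g * h)
    rw [map_mul ρ, hc, map_mul χ, Units.val_mul] at r2
    -- a linear relation for the non-scalar `ρ h`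
    have r3 : (c ^ 2 * a h - c * a (g * h)) • ρ h +
        (((χ g : Fˣ) : F) * ((χ h : Fˣ) : F) - c ^ 2 * ((χ h : Fˣ) : F)) •
          (1 : Module.End F V) = 0 := by
      have e1 : c • (1 : Module.End F V) * ρ h * (c • (1 : Module.End F V) * ρ h) =
          c ^ 2 • (ρ h * ρ h) := by
        rw [smul_mul_assoc, one_mul, smul_mul_assoc, mul_smul_comm, smul_smul, pow_two]
      have e2 : ρ h * ρ h = a h • ρ h - ((χ h : Fˣ) : F) • (1 : Module.End F V) := by
        rw [← sub_eq_zero, ← r1]; abel
      rw [e1, e2, smul_mul_assoc, one_mul] at r2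
      rw [← r2]
      module
    have hcoef1 : c ^ 2 * a h - c * a (g * h) = 0 := by
      by_contra hne
      apply hh (-(c ^ 2 * a h - c * a (g * h))⁻¹ *
        (((χ g : Fˣ) : F) * ((χ h : Fˣ) : F) - c ^ 2 * ((χ h : Fˣ) : F)))
      have h3 := eq_neg_of_add_eq_zero_left r3
      calc ρ h = (c ^ 2 * a h - c * a (g * h))⁻¹ • ((c ^ 2 * a h - c * a (g * h)) • ρ h) := by
            rw [smul_smul, inv_mul_cancel₀ hne, one_smul]
        _ = _ := by rw [h3, smul_neg, smul_smul, neg_mul, neg_smul]
    have hcoef0 : ((χ g : Fˣ) : F) * ((χ h : Fˣ) : F) - c ^ 2 * ((χ h : Fˣ) : F) = 0 := by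
      rw [hcoef1, zero_smul, zero_add] at r3
      by_contra hne
      exact hone ((smul_eq_zero.mp r3).resolve_left hne)
    have hχ : ((χ g : Fˣ) : F) = c ^ 2 := by
      have h3 : (((χ g : Fˣ) : F) - c ^ 2) * ((χ h : Fˣ) : F) = 0 := by
        rw [← hcoef0]; ring
      rcases mul_eq_zero.mp h3 with h4 | h4
      · exact sub_eq_zero.mp h4
      · exact absurd h4 (Units.ne_zero _)
    -- relation for `g` itself
    have r4 := hrel g
    rw [hc, smul_mul_assoc, one_mul, smul_smul, smul_smul, ← sub_smul, ← add_smul] at r4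
    have r5 : c * c - a g * c + ((χ g : Fˣ) : F) = 0 := by
      by_contra hne
      exact hone ((smul_eq_zero.mp r4).resolve_left hne)
    have ha : a g = 2 * c := by
      rw [hχ] at r5
      have h3 : c * (2 * c - a g) = 0 := by rw [← r5]; ring
      rcases mul_eq_zero.mp h3 with h4 | h4
      · exact absurd h4 hc0
      · exact (sub_eq_zero.mp h4).symm
    rw [hc, charpoly_smul_one_eq, h2, hχ, ha]
    simp only [map_mul, map_pow, map_ofNat]
    ring

/-! ### The one dimensional case -/

theorem exists_eq_smul_one_of_finrank_one [FiniteDimensional F V]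
    (h1 : Module.finrank F V = 1) (x : Module.End F V) :
    ∃ c : F, x = c • (1 : Module.End F V) := by
  obtain ⟨v, _, hv⟩ := finrank_eq_one_iff'.mp h1
  obtain ⟨c, hc⟩ := hv (x v)
  refine ⟨c, LinearMap.ext fun w => ?_⟩
  obtain ⟨d, rfl⟩ := hv w
  rw [map_smul, ← hc, LinearMap.smul_apply, Module.End.one_apply, smul_comm]

theorem End_comm_of_finrank_one [FiniteDimensional F V]
    (h1 : Module.finrank F V = 1) (x y : Module.End F V) : x * y = y * x := by
  obtain ⟨c, rfl⟩ := exists_eq_smul_one_of_finrank_one h1 x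
  rw [smul_mul_assoc, one_mul, mul_smul_comm, mul_one]

/-- The representation `ρ ⊕ χ ρ⁻¹` attached to a one dimensional representation. -/
def sumTwistRep [FiniteDimensional F V] (h1 : Module.finrank F V = 1)
    (ρ : G →* Module.End F V) (χ : G →* Fˣ) : G →* Module.End F (V × V) where
  toFun g := (ρ g).prodMap (((χ g : Fˣ) : F) • ρ g⁻¹)
  map_one' := by
    rw [inv_one, map_one, map_one, Units.val_one, one_smul]
    exact LinearMap.prodMap_one
  map_mul' g h := by
    have e : (((χ (g * h) : Fˣ) : F)) • ρ (g * h)⁻¹ =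
        (((χ g : Fˣ) : F) • ρ g⁻¹) * (((χ h : Fˣ) : F) • ρ h⁻¹) := by
      rw [mul_inv_rev, map_mul ρ, map_mul χ, Units.val_mul, smul_mul_assoc, mul_smul_comm,
        smul_smul, End_comm_of_finrank_one h1 (ρ h⁻¹) (ρ g⁻¹)]
    rw [e, map_mul ρ]
    exact (LinearMap.prodMap_mul _ _ _ _).symm

theorem sumTwistRep_apply [FiniteDimensional F V] (h1 : Module.finrank F V = 1)
    (ρ : G →* Module.End F V) (χ : G →* Fˣ) (g : G) :
    sumTwistRep h1 ρ χ g = (ρ g).prodMap (((χ g : Fˣ) : F) • ρ g⁻¹) := rfl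

theorem QuadRel.charpoly_sumTwistRep {ρ : G →* Module.End F V} {χ : G →* Fˣ} {a : G → F}
    [FiniteDimensional F V] (hrel : QuadRel ρ χ a) (h1 : Module.finrank F V = 1) (g : G) :
    LinearMap.charpoly (sumTwistRep h1 ρ χ g) =
      X ^ 2 - C (a g) * X + C ((χ g : Fˣ) : F) := by
  have _hnt : Nontrivial V := Module.nontrivial_of_finrank_pos (R := F) (by omega)
  have hone : (1 : Module.End F V) ≠ 0 := one_ne_zero
  obtain ⟨c, hc⟩ := exists_eq_smul_one_of_finrank_one h1 (ρ g)
  have h2 : ((χ g : Fˣ) : F) • ρ g⁻¹ = (a g - c) • (1 : Module.End F V) := by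
    have := hrel.add_inv g
    rw [hc] at this
    rw [sub_smul, ← this]
    abel
  have r4 := hrel g
  rw [hc, smul_mul_assoc, one_mul, smul_smul, smul_smul, ← sub_smul, ← add_smul] at r4
  have r5 : c * c - a g * c + ((χ g : Fˣ) : F) = 0 := by
    by_contra hne
    exact hone ((smul_eq_zero.mp r4).resolve_left hne)
  have hχ : ((χ g : Fˣ) : F) = c * (a g - c) := by
    rw [← sub_eq_zero, ← r5]; ring
  rw [sumTwistRep_apply, LinearMap.charpoly_prodMap, h2, hc, charpoly_smul_one_eq,
    charpoly_smul_one_eq, h1, hχ]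
  simp only [pow_one, map_mul, map_sub]
  ring

theorem sumTwistRep_eq_one [FiniteDimensional F V] (h1 : Module.finrank F V = 1)
    (ρ : G →* Module.End F V) (χ : G →* Fˣ) (g : G) (hg : ρ g = 1) (hχ : χ g = 1) :
    sumTwistRep h1 ρ χ g = 1 := by
  have hinv : ρ g⁻¹ = 1 := by
    have := rep_inv_mul ρ g
    rwa [hg, mul_one] at this
  rw [sumTwistRep_apply, hg, hinv, hχ, Units.val_one, one_smul]
  exact LinearMap.prodMap_one

/-! ### Restriction to a minimal invariant subspace -/

/-- The restriction of a representation to an invariant subspace. -/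
def restrictRep (ρ : G →* Module.End F V) (W : Submodule F V)
    (hW : ∀ g, ∀ x ∈ W, ρ g x ∈ W) : G →* Module.End F W where
  toFun g := (ρ g).restrict (hW g)
  map_one' := by
    ext x
    simp
  map_mul' g h := by
    ext x
    simp

theorem restrictRep_apply (ρ : G →* Module.End F V) (W : Submodule F V)
    (hW : ∀ g, ∀ x ∈ W, ρ g x ∈ W) (g : G) (x : W) :
    ((restrictRep ρ W hW g x : W) : V) = ρ g x := rfl

theorem QuadRel.restrictRep {ρ : G →* Module.End F V} {χ : G →* Fˣ} {a : G → F}
    (hrel : QuadRel ρ χ a) (W : Submodule F V) (hW : ∀ g, ∀ x ∈ W, ρ g x ∈ W) :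
    QuadRel (Fermat.Agent.H53.restrictRep ρ W hW) χ a := by
  intro g
  ext x
  have h1 := congrArg (fun f : Module.End F V => f (x : V)) (hrel g)
  simp only [LinearMap.add_apply, LinearMap.sub_apply, Module.End.mul_apply,
    LinearMap.smul_apply, Module.End.one_apply, LinearMap.zero_apply] at h1
  simp only [LinearMap.add_apply, LinearMap.sub_apply, Module.End.mul_apply,
    LinearMap.smul_apply, Module.End.one_apply, LinearMap.zero_apply, Submodule.coe_add,
    Submodule.coe_sub, Submodule.coe_smul, restrictRep_apply, ZeroMemClass.coe_zero]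
  exact h1

theorem restrictRep_eq_one (ρ : G →* Module.End F V) (W : Submodule F V)
    (hW : ∀ g, ∀ x ∈ W, ρ g x ∈ W) (g : G) (hg : ρ g = 1) : restrictRep ρ W hW g = 1 := by
  ext x
  rw [restrictRep_apply, hg]
  rfl

theorem exists_minimal_invariant [FiniteDimensional F V] [Nontrivial V]
    (ρ : G →* Module.End F V) :
    ∃ W : Submodule F V, W ≠ ⊥ ∧ (∀ g, ∀ x ∈ W, ρ g x ∈ W) ∧
      ∀ W' : Submodule F V, W' ≤ W → (∀ g, ∀ x ∈ W', ρ g x ∈ W') → W' = ⊥ ∨ W' = W := by
  classical
  have hex : ∃ n : ℕ, ∃ W : Submodule F V, W ≠ ⊥ ∧ (∀ g, ∀ x ∈ W, ρ g x ∈ W) ∧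
      Module.finrank F W = n :=
    ⟨_, ⊤, top_ne_bot, fun _ _ _ => Submodule.mem_top, rfl⟩
  obtain ⟨W, hW0, hWinv, hWn⟩ := Nat.find_spec hex
  refine ⟨W, hW0, hWinv, fun W' hle hinv => ?_⟩
  by_cases h0 : W' = ⊥
  · exact Or.inl h0
  · right
    have hmin : Nat.find hex ≤ Module.finrank F W' := Nat.find_min' hex ⟨W', h0, hinv, rfl⟩
    exact Submodule.eq_of_le_of_finrank_le hle (hWn.le.trans hmin)

theorem isSimpleRep_restrictRep (ρ : G →* Module.End F V) (W : Submodule F V)
    (hW : ∀ g, ∀ x ∈ W, ρ g x ∈ W)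
    (hmin : ∀ W' : Submodule F V, W' ≤ W → (∀ g, ∀ x ∈ W', ρ g x ∈ W') → W' = ⊥ ∨ W' = W) :
    IsSimpleRep (restrictRep ρ W hW) := by
  intro U hU
  have hinv : ∀ g, ∀ x ∈ U.map W.subtype, ρ g x ∈ U.map W.subtype := by
    rintro g _ ⟨u, hu, rfl⟩
    exact ⟨restrictRep ρ W hW g u, hU g u hu, rfl⟩
  rcases hmin _ (Submodule.map_subtype_le W U) hinv with h0 | h1
  · left
    rw [eq_bot_iff]
    intro u hu
    have : (u : V) ∈ U.map W.subtype := ⟨u, hu, rfl⟩
    rw [h0, Submodule.mem_bot] at this
    rw [Submodule.mem_bot]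
    exact Subtype.ext this
  · right
    rw [eq_top_iff]
    intro w _
    have : (w : V) ∈ U.map W.subtype := by rw [h1]; exact w.2
    obtain ⟨u, hu, huw⟩ := this
    have : u = w := Subtype.ext huw
    rwa [← this]

end Basic

/-! ### The main lemma -/

universe u

/-- **Lemma A.**  Over a finite field, a nonzero finite dimensional representation all of whose
elements satisfy `x ^ 2 - a(g) x + χ(g) = 0` gives rise to a two dimensional representation with
characteristic polynomials `X ^ 2 - a(g) X + χ(g)`. -/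
theorem exists_two_dim_rep_of_quadRel {G : Type*} [Group G] {F : Type*} [Field F] [Finite F]
    {V₀ : Type u} [AddCommGroup V₀] [Module F V₀] [FiniteDimensional F V₀] [Nontrivial V₀]
    (ρ₀ : G →* Module.End F V₀) (χ : G →* Fˣ) (a : G → F) (hrel : QuadRel ρ₀ χ a) :
    ∃ (V : Type u) (_ : AddCommGroup V) (_ : Module F V) (_ : Module.Finite F V)
      (ρ : G →* Module.End F V),
      Module.finrank F V = 2 ∧
      (∀ g, LinearMap.charpoly (ρ g) = X ^ 2 - C (a g) * X + C ((χ g : Fˣ) : F)) ∧
      (∀ g, ρ₀ g = 1 → χ g = 1 → ρ g = 1) := by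
  obtain ⟨W, hW0, hWinv, hWmin⟩ := exists_minimal_invariant ρ₀
  have hs := isSimpleRep_restrictRep ρ₀ W hWinv hWmin
  have hrel' := hrel.restrictRep W hWinv
  have _hnt : Nontrivial W := by
    obtain ⟨w, hw, hw0⟩ := (Submodule.ne_bot_iff _).mp hW0
    exact ⟨⟨⟨w, hw⟩, 0, fun h => hw0 (congrArg Subtype.val h)⟩⟩
  have hle := hrel'.finrank_le_two hs
  have hpos : 0 < Module.finrank F W := Module.finrank_pos
  have hcases : Module.finrank F W = 1 ∨ Module.finrank F W = 2 := by omega
  rcases hcases with h1 | h2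
  · refine ⟨W × W, inferInstance, inferInstance, inferInstance,
      sumTwistRep h1 (restrictRep ρ₀ W hWinv) χ,
      ?_, hrel'.charpoly_sumTwistRep h1, fun g hg hχ => ?_⟩
    · rw [Module.finrank_prod, h1]
    · exact sumTwistRep_eq_one h1 _ χ g (restrictRep_eq_one ρ₀ W hWinv g hg) hχ
  · exact ⟨W, inferInstance, inferInstance, inferInstance, restrictRep ρ₀ W hWinv, h2,
      hrel'.charpoly_eq hs h2, fun g hg _ => restrictRep_eq_one ρ₀ W hWinv g hg⟩

end Fermat.Agent.H53
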